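import Mathlib
import Fermat.Agent.S48.B.Defs.Model
import Fermat.Agent.S48.B.B1.Seams
import Fermat.Agent.S18.A.Chart
import Fermat.Agent.S18.C.GaussRat
import Fermat.Agent.S28.ThetaAdjoin

/-!
# PROJECT D (S48), part B, seam [B-K3] (helper13): the `X₁` twin of contract K3.  File 1: the
# `j`-line structures of the three function fields of `X₁(N)` and THE INPUTS

Twin of `S18/C/ModularInst.lean`.  The `j`-line is `RatFunc K` (`X = j`).  This file fixes the
algebra structures `RatFunc K → F` (`X ↦ j`) on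

* `F0 = F1 N`        (`K = ℚ`, `j = jFull1 N`),
* `FL = F1Bar N`     (`K = ℚ̄`, `j = jgen1 N` of `B1/Seams.lean`),
* `Fk = F1C N k`     (any field `k`, `j = jk1 N k`),

as GLOBAL instances, and states the three input classes of the block:

* `CharZero1 N`  (block B1): `IsFF ℚ̄ (jgen1 N)` and the ramification of `j` on `ℚ̄(X₁(N))`
  (twin of `S18/C/S24Ram`);
* `Gauss1 ℓ N`   (block B2, [B-igusa]): the Gauss valuation ring of `ℚ(X₁(N))` at `ℓ` is unramified
  over the Gauss valuation ring of `ℚ(j)` with separable residue extension (twin of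
  `S18/C/GaussSep.exists_hypRat_isUnit_discr`);
* `Residue1 N A` (block B3): `F1C N κ(A)` is a function field over `κ(A)` of degree at least
  `[ℚ̄(X₁(N)) : ℚ̄(j)]` over `κ(A)(j̄)`.
-/

set_option autoImplicit false
set_option synthInstance.maxHeartbeats 400000

noncomputable section

namespace Fermat.Agent.S48.B.K3.Inputs

open ModularCurve AlgebraicCurve IntermediateField
open Fermat.Agent.S48.B.Defs.Model Fermat.Agent.S48.B.B1.Seams
open Fermat.Agent.S24.FF Fermat.Agent.S18.A
open Fermat.Agent.S18.C.UnramVal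

local notation "Kb" => AlgebraicClosure ℚ

variable (N : ℕ) [NeZero N]

/-! ### `j` in the three fields -/

theorem jq_mem_F1 : jq ∈ F1 N := full_le_F1 N (modularFunctionField_le_full N (jq_mem N))

/-- `j` as an element of `ℚ(X₁(N))` -/
def jFull1 : ↥(F1 N) := ⟨jq, jq_mem_F1 N⟩

@[simp] theorem coe_jFull1 : ((jFull1 N : ↥(F1 N)) : LaurentSeries ℚ) = jq := rfl

theorem jqModC_mem_F1C (k : Type*) [Field k] : jqModC k ∈ F1C N k := by
  rw [← coeffMap_jqModC (Int.castRingHom k)]
  refine coeffMap_mem_F1C N k ?_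
  rw [coeffMap_jqModC]
  exact jq_mem_F1 N

/-- `j̄` as an element of `k(X₁(N))` -/
def jk1 (k : Type*) [Field k] : ↥(F1C N k) := ⟨jqModC k, jqModC_mem_F1C N k⟩

@[simp] theorem coe_jk1 (k : Type*) [Field k] :
    ((jk1 N k : ↥(F1C N k)) : LaurentSeries k) = jqModC k := rfl

theorem coe_jgen1 : ((jgen1 N : ↥(F1Bar N)) : LaurentSeries Kb) = coeffEmb Kb jq := by
  unfold jgen1
  rw [IntermediateField.coe_inclusion]
  exact Fermat.Agent.S24.DegreeAlg.coe_jgen N

/-! ### transcendence -/

section Transc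

variable {K : Type*} [Field K] {Ω : Type*} [Field Ω] [Algebra K Ω]

/-- transcendence does not depend on the intermediate field in which the element is regarded -/
theorem transcendental_subtype (F : IntermediateField K Ω) (x : ↥F)
    (hx : Transcendental K (x : Ω)) : Transcendental K x := by
  rw [transcendental_iff]
  intro p hp
  apply transcendental_iff.mp hx p
  have := congrArg F.val hp
  rw [← Polynomial.aeval_algHom_apply, map_zero] at this
  exact this

end Transc

theorem transcendental_jFull1 [inst : Algebra ℚ ↥(F1 N)] : Transcendental ℚ (jFull1 N) := by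
  have h := transcendental_subtype (F1 N) (jFull1 N)
    (Fermat.Agent.S28.ThetaAdjoin.transcendental_jqModC ℚ)
  convert h
  · rfl
  · exact Subsingleton.elim _ _

theorem transcendental_jk1 (k : Type*) [Field k] : Transcendental k (jk1 N k) :=
  transcendental_subtype (F1C N k) (jk1 N k)
    (Fermat.Agent.S28.ThetaAdjoin.transcendental_jqModC k)

theorem transcendental_jgen1 : Transcendental Kb (jgen1 N) := by
  refine transcendental_subtype (F1Bar N) (jgen1 N) ?_
  rw [coe_jgen1]
  have h : coeffEmb Kb jq = jqModC Kb := coeffMap_jqModC (algebraMap ℚ Kb)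
  rw [h]
  exact Fermat.Agent.S28.ThetaAdjoin.transcendental_jqModC Kb

/-! ### `F0` over `ℚ(j)` -/

instance algF0 : Algebra (RatFunc ℚ) ↥(F1 N) :=
  Chart.ratAlgebra (transcendental_jFull1 N)

theorem algebraMap_F0 (a : RatFunc ℚ) :
    algebraMap (RatFunc ℚ) ↥(F1 N) a = Chart.evalRat (transcendental_jFull1 N) a := rfl

@[simp]
theorem algebraMap_F0_X : algebraMap (RatFunc ℚ) ↥(F1 N) RatFunc.X = jFull1 N := by
  rw [algebraMap_F0, Chart.evalRat_X]

instance : IsScalarTower ℚ (RatFunc ℚ) ↥(F1 N) :=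
  Chart.isScalarTower_ratAlgebra (transcendental_jFull1 N)

/-! ### `FL` over `ℚ̄(j)` -/

instance algFL : Algebra (RatFunc Kb) ↥(F1Bar N) :=
  Chart.ratAlgebra (transcendental_jgen1 N)

theorem algebraMap_FL (a : RatFunc Kb) :
    algebraMap (RatFunc Kb) ↥(F1Bar N) a = Chart.evalRat (transcendental_jgen1 N) a := rfl

@[simp]
theorem algebraMap_FL_X : algebraMap (RatFunc Kb) ↥(F1Bar N) RatFunc.X = jgen1 N := by
  rw [algebraMap_FL, Chart.evalRat_X]

instance : IsScalarTower Kb (RatFunc Kb) ↥(F1Bar N) :=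
  Chart.isScalarTower_ratAlgebra (transcendental_jgen1 N)

/-! ### `Fk` over `k(j)` -/

variable (k : Type*) [Field k]

instance algFk : Algebra (RatFunc k) ↥(F1C N k) :=
  Chart.ratAlgebra (transcendental_jk1 N k)

theorem algebraMap_Fk (a : RatFunc k) :
    algebraMap (RatFunc k) ↥(F1C N k) a = Chart.evalRat (transcendental_jk1 N k) a := rfl

@[simp]
theorem algebraMap_Fk_X : algebraMap (RatFunc k) ↥(F1C N k) RatFunc.X = jk1 N k := by
  rw [algebraMap_Fk, Chart.evalRat_X]

instance : IsScalarTower k (RatFunc k) ↥(F1C N k) :=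
  Chart.isScalarTower_ratAlgebra (transcendental_jk1 N k)

/-! ### THE INPUTS -/

/-- **Input from block B1** (characteristic zero): `j` is a separating coordinate of `ℚ̄(X₁(N))`,
unramified outside `0, 1728, ∞`, with ramification indices dividing `3` over `0` and `2` over
`1728` (twin of `S18/C/S24Ram`: the LOCAL form, not implied by the counts of `Places1`). -/
class CharZero1 : Prop where
  isFF : IsFF Kb (jgen1 N)
  ord_eq_one : ∀ a : Kb, a ≠ 1728 → a ≠ 0 → ∀ v : Place Kb ↥(F1Bar N),
    jgen1 N - algebraMap Kb ↥(F1Bar N) a ∈ v.toValuationSubring.nonunits →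
      v.ord (jgen1 N - algebraMap Kb ↥(F1Bar N) a) = 1
  ord_dvd_two : ∀ v : Place Kb ↥(F1Bar N),
    jgen1 N - algebraMap Kb ↥(F1Bar N) 1728 ∈ v.toValuationSubring.nonunits →
      v.ord (jgen1 N - algebraMap Kb ↥(F1Bar N) 1728) ∣ 2
  ord_dvd_three : ∀ v : Place Kb ↥(F1Bar N),
    jgen1 N - algebraMap Kb ↥(F1Bar N) 0 ∈ v.toValuationSubring.nonunits →
      v.ord (jgen1 N - algebraMap Kb ↥(F1Bar N) 0) ∣ 3

/-- **Input from block B2** ([B-igusa] at the level of `ℚ`): there is a valuation subring `O` of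
`ℚ(X₁(N))` (the Gauss valuation ring at `ℓ`) whose trace on the `j`-line is the Gauss valuation ring
`GaussRat.Vrat ℓ 1` of `ℚ(j)` (fractions `P(j)/Q(j)`, `P, Q ∈ ℤ[X]`, `Q ≢ 0 mod ℓ`:
`GaussRat.mem_Vrat_iff`), with the unramified package `UnramVal.Hyp` (full residue degree) and
separable residue extension. -/
class Gauss1 (ℓ : ℕ) [Fact ℓ.Prime] : Prop where
  out : ∃ O : ValuationSubring ↥(F1 N),
    (∀ f : RatFunc ℚ, algebraMap (RatFunc ℚ) ↥(F1 N) f ∈ O ↔
      f ∈ Fermat.Agent.S18.C.GaussRat.Vrat ℓ 1) ∧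
    ∃ (κ₀ κ : Type) (_ : Field κ₀) (_ : Field κ) (_ : Algebra κ₀ κ)
      (_ : Algebra.IsSeparable κ₀ κ) (red : ↥O →+* κ)
      (redV : ↥(below (RatFunc ℚ) O) →+* κ₀)
      (t : Fin (Module.finrank (RatFunc ℚ) ↥(F1 N)) → ↥O), Hyp (RatFunc ℚ) O red redV t

/-- shortcut (the generic instance search for this algebra structure takes more than a second);
use it with `attribute [local instance 2000]` (twin of `S18/C/KModelX0.algkFk`) -/
@[reducible] def algkFk1 (A : ValuationSubring (AlgebraicClosure ℚ)) (N : ℕ) [NeZero N] :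
    Algebra (IsLocalRing.ResidueField A) ↥(F1C N (IsLocalRing.ResidueField A)) := inferInstance

attribute [local instance 2000] algkFk1

/-- **Input from block B3** (residue characteristic `ℓ`, `k = κ(A)`): `k(X₁(N))` is a function field
over `k` with coordinate `j̄`, of degree at least `[ℚ̄(X₁(N)) : ℚ̄(j)]` over `k(j̄)`
(Igusa's bound). -/
class Residue1 (A : ValuationSubring Kb) : Prop where
  isFF : IsFF (IsLocalRing.ResidueField A) (jk1 N (IsLocalRing.ResidueField A))
  finrank_le : Module.finrank Kb⟮jgen1 N⟯ ↥(F1Bar N) ≤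
    Module.finrank (IsLocalRing.ResidueField A)⟮jk1 N (IsLocalRing.ResidueField A)⟯
      ↥(F1C N (IsLocalRing.ResidueField A))

end Fermat.Agent.S48.B.K3.Inputs

end
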