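import Mathlib
import Fermat.Agent.S48.B.K3.Inputs
import Fermat.Agent.S48.B.B1.Ram1

/-!
# PROJECT D (S48), part B, seam [B-K3] (helper13).  Adapter 1: the input `CharZero1` from block B1

`CharZero1 M` (`K3/Inputs.lean`) is the conjunction of `(Seams.Deg1 M).1` and of the three local
ramification statements of helper27's `B1/Ram1.lean` (blob 154fcaae), in the same spelling.
-/

set_option autoImplicit false

noncomputable section

namespace Fermat.Agent.S48.B.K3.FromB1

open Fermat.Agent.S48.B.B1.Seams Fermat.Agent.S48.B.B1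
open Fermat.Agent.S48.B.K3.Inputs

variable (M : ℕ) [NeZero M]

/-- **the input `CharZero1 M` of [B-K3] from the seams of block B1** (`RepLe`, `Deg1` and the
separation of the Taylor functionals). -/
theorem charZero1_of (hle : RepLe M) (hdeg : Deg1 M) (hsep : Orbits1PtAlt.SepTay M hle) :
    CharZero1 M where
  isFF := hdeg.1
  ord_eq_one := Ram1.ord_jgen1_sub_eq_one M hle hdeg hsep
  ord_dvd_two := Ram1.ord_jgen1_sub_1728_dvd M hle hdeg hsep
  ord_dvd_three := Ram1.ord_jgen1_dvd M hle hdeg hsep

end Fermat.Agent.S48.B.K3.FromB1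

end
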