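import Mathlib
import Fermat.Agent.S48.B.K3.Inputs
import Fermat.Agent.S30.Descent.ConstExt
import Fermat.Agent.S18.C.BaseChangeR

/-!
# PROJECT D (S48), part B, seam [B-K3] (helper13).  File 2: the form `ℚ̄(j) ⊗_{ℚ(j)} F1 = F1Bar`

Twin of the section `CharZero` of `S18/C/Forms.lean` and of the section `CharZeroInst` of
`S18/C/BaseChangeR.lean`.  The degree input of the `X₀` original (`S28/DegreeQ` + `S24/Degree`) is
replaced by the constant field extension theorem `S30/Descent/ConstExt.finrank_bcHom` (main, generic):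
from `[CharZero1 N]` (`IsFF ℚ̄ (jgen1 N)`) we get `[F1 : ℚ(j)] < ∞` and `[F1 : ℚ(j)] = [F1Bar : ℚ̄(j)]`.

* `embBar1 N : F1 N →+* F1Bar N` (restriction of `coeffEmb ℚ̄`), `embBar1_jFull1`;
* `finiteDimensional_full1`, `finrank_full1_eq_finrank_bar1`;
* `embBar1_algebraMap_ratFunc`, `finrank_ratFunc_full1`, `finrank_ratFunc_bar1`, `exists_basis_bar1`;
* `compRBar1`, `baseChangeEquivBar1`, `compRBar1_injective`.
-/

set_option autoImplicit false
set_option linter.unusedSectionVars false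
set_option linter.style.haveILetI false

noncomputable section

namespace Fermat.Agent.S48.B.K3.Forms1

open ModularCurve IntermediateField TensorProduct Polynomial
open Fermat.Agent.S48.B.Defs.Model Fermat.Agent.S48.B.B1.Seams
open Fermat.Agent.S48.B.K3.Inputs
open Fermat.Agent.S24.FF Fermat.Agent.S18.A
open Fermat.Agent.S30.Descent.ConstExt
open Fermat.Agent.S18.C.Defs Fermat.Agent.S18.C.RAlgStructure Fermat.Agent.S18.C.BaseChangeR

local notation "Kb" => AlgebraicClosure ℚ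

/-! ### generic: descent of finite dimensionality along a constant field extension -/

section Generic

variable {K : Type*} {K' : Type*} [Field K] [Field K'] [Algebra K K']
  (F : IntermediateField K (LaurentSeries K))

/-- If the constant field extension `F' = K'(bc F)` is finite over `K'(bc y)`, then `F` is finite
over `K(y)` (a `K(y)`-independent family of `F` stays `K'(bc y)`-independent). -/
theorem finiteDimensional_of_bc {y : F} (hy : Transcendental K y)
    (h : FiniteDimensional K'⟮bcHom K' F y⟯ (constExt K' F)) : FiniteDimensional K⟮y⟯ F := by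
  classical
  have hrank : Module.rank K⟮y⟯ F ≤
      (Module.finrank K'⟮bcHom K' F y⟯ (constExt K' F) : ℕ) := by
    refine rank_le fun s hs => ?_
    have hli : LinearIndependent K'⟮bcHom K' F y⟯ (fun i : s => bcHom K' F (i : F)) :=
      Fermat.Agent.S37.Deuring.GaussLemmas.linearIndependent_field_of_aeval _ _
        (aeval_bcHom_eq_zero (K' := K') hy (fun i : s => (i : F)) hs)
    have := hli.fintype_card_le_finrank
    rwa [Fintype.card_coe] at this
  exact IsNoetherian.iff_fg.mp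
    (IsNoetherian.iff_rank_lt_aleph0.mpr (lt_of_le_of_lt hrank (Cardinal.natCast_lt_aleph0)))

variable {Ω : Type*} [Field Ω] [Algebra K Ω]

/-- transport of `IsFF` along an equality of intermediate fields -/
theorem isFF_congr {E E' : IntermediateField K Ω} (h : E = E') (x : ↥E) (x' : ↥E')
    (hx : (x : Ω) = x') (hE : IsFF K x) : IsFF K x' := by
  subst h
  obtain rfl : x = x' := Subtype.ext hx
  exact hE

/-- transport of `finrank K⟮x⟯ ↥E` along an equality of intermediate fields -/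
theorem finrank_congr {E E' : IntermediateField K Ω} (h : E = E') (x : ↥E) (x' : ↥E')
    (hx : (x : Ω) = x') : Module.finrank K⟮x⟯ ↥E = Module.finrank K⟮x'⟯ ↥E' := by
  subst h
  obtain rfl : x = x' := Subtype.ext hx
  rfl

end Generic

/-! ### (i) characteristic `0` -/

section CharZero

-- As in `S18/C/Forms.lean`: on `↥(F1 N)` we use the `ℚ`-algebra structure of `IntermediateField`.
attribute [-instance] DivisionRing.toRatAlgebra

variable (N : ℕ) [NeZero N]

/-- The embedding `F1 N → F1Bar N`, restriction of `coeffEmb ℚ̄`. -/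
def embBar1 : ↥(F1 N) →+* ↥(F1Bar N) :=
  (coeffEmb Kb).restrict (F1 N) (F1Bar N) (fun _ hx => coeffEmb_mem_laurentBaseChange Kb hx)

@[simp] theorem coe_embBar1 (x : ↥(F1 N)) :
    ((embBar1 N x : ↥(F1Bar N)) : LaurentSeries Kb) = coeffEmb Kb (x : LaurentSeries ℚ) := rfl

theorem embBar1_jFull1 : embBar1 N (jFull1 N) = jgen1 N :=
  Subtype.ext (coe_jgen1 N).symm

theorem embBar1_algebraMap (r : ℚ) :
    embBar1 N (algebraMap ℚ ↥(F1 N) r) = algebraMap Kb ↥(F1Bar N) (algebraMap ℚ Kb r) :=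
  Subtype.ext (Fermat.Agent.S24.DegreeAlg.coeffEmb_algebraMap Kb r)

/-- the constant field extension of `F1 N` to `ℚ̄` is `F1Bar N` -/
theorem constExt_F1 : constExt Kb (F1 N) = F1Bar N := rfl

theorem coe_bcHom_jFull1 :
    ((bcHom Kb (F1 N) (jFull1 N) : ↥(constExt Kb (F1 N))) : LaurentSeries Kb) = jgen1 N :=
  (coe_jgen1 N).symm

/-- `F1Bar N` is generated over `ℚ̄` by the image of `F1 N`. -/
theorem adjoin_range_embBar1 :
    IntermediateField.adjoin Kb (Set.range fun y : ↥(F1 N) => embBar1 N y) = ⊤ := by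
  have h1 : (IntermediateField.adjoin Kb (Set.range fun y : ↥(F1 N) => embBar1 N y)).map
      (F1Bar N).val = F1Bar N := by
    rw [IntermediateField.adjoin_map, ← Set.range_comp]
    show IntermediateField.adjoin Kb _ = laurentBaseChange Kb (F1 N)
    rw [laurentBaseChange]
    congr 1
    ext z
    constructor
    · rintro ⟨y, rfl⟩
      exact ⟨(y : LaurentSeries ℚ), y.2, rfl⟩
    · rintro ⟨y, hy, rfl⟩
      exact ⟨⟨y, hy⟩, rfl⟩
  have h2 : (⊤ : IntermediateField Kb ↥(F1Bar N)).map (F1Bar N).val = F1Bar N := by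
    rw [← AlgHom.fieldRange_eq_map, IntermediateField.fieldRange_val]
  exact IntermediateField.map_injective _ (h1.trans h2.symm)

variable [CharZero1 N]

/-- `[F1 : ℚ(j)] < ∞` -/
theorem finiteDimensional_full1 : FiniteDimensional ℚ⟮jFull1 N⟯ ↥(F1 N) := by
  refine finiteDimensional_of_bc (K' := Kb) (F1 N) (transcendental_jFull1 N) ?_
  exact (isFF_congr (constExt_F1 N).symm (jgen1 N) (bcHom Kb (F1 N) (jFull1 N))
    (coe_bcHom_jFull1 N).symm (CharZero1.isFF (N := N))).finite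

theorem finiteDimensional_bar1 : FiniteDimensional Kb⟮jgen1 N⟯ ↥(F1Bar N) :=
  (CharZero1.isFF (N := N)).finite

/-- **`[F1 : ℚ(j)] = [F1Bar : ℚ̄(j)]`** -/
theorem finrank_full1_eq_finrank_bar1 :
    Module.finrank ℚ⟮jFull1 N⟯ ↥(F1 N) = Module.finrank Kb⟮jgen1 N⟯ ↥(F1Bar N) := by
  haveI := finiteDimensional_full1 N
  rw [← (finrank_bcHom (K' := Kb) (F := F1 N) (transcendental_jFull1 N)).2]
  exact finrank_congr (constExt_F1 N) _ _ (coe_bcHom_jFull1 N)

/-- the `ℚ`-algebra structure of `IntermediateField` on `F1 N`, named -/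
abbrev algF1 : Algebra ℚ ↥(F1 N) := inferInstance

end CharZero

/-! ### (i) `ℚ → ℚ̄`: `ℚ̄(μ) ⊗_{ℚ(μ)} RAlg c ℚ F1 ≃ RAlg c ℚ̄ F1Bar`
(twin of `S18/C/BaseChangeR`, section `CharZeroInst`) -/

section CharZeroInst

variable (N : ℕ) [NeZero N]

/-- `embBar1` on the constants, for the DEFAULT `ℚ`-algebra structure of `F1 N`
(`DivisionRing.toRatAlgebra`, the one used by `Inputs.algF0`). -/
theorem embBar1_algebraMap_rat (r : ℚ) :
    embBar1 N (algebraMap ℚ ↥(F1 N) r) = algebraMap Kb ↥(F1Bar N) (algebraMap ℚ Kb r) := by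
  rw [eq_ratCast, eq_ratCast, map_ratCast, map_ratCast]

/-- `embBar1` is compatible with `ℚ(j) → ℚ̄(j)`. -/
theorem embBar1_algebraMap_ratFunc (a : RatFunc ℚ) :
    embBar1 N (algebraMap (RatFunc ℚ) ↥(F1 N) a)
      = algebraMap (RatFunc Kb) ↥(F1Bar N) (ratMap ℚ Kb a) :=
  map_evalRat (transcendental_jFull1 N) (transcendental_jgen1 N) (embBar1 N)
    (embBar1_algebraMap_rat N) (embBar1_jFull1 N) a

variable [CharZero1 N]

/-- `[F1 : ℚ(j)] ≤ [F1Bar : ℚ̄(j)]` for ANY `ℚ`-algebra structure on `F1 N`. -/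
theorem finrank_full1_le_bar1_of_algebra [inst : Algebra ℚ ↥(F1 N)] :
    FiniteDimensional ℚ⟮jFull1 N⟯ ↥(F1 N) ∧
      Module.finrank ℚ⟮jFull1 N⟯ ↥(F1 N) ≤ Module.finrank Kb⟮jgen1 N⟯ ↥(F1Bar N) := by
  obtain rfl : inst = algF1 N := Subsingleton.elim _ _
  exact ⟨finiteDimensional_full1 N, (finrank_full1_eq_finrank_bar1 N).le⟩

/-- `[F1 : ℚ(j)] = [F1Bar : ℚ̄(j)]` for ANY `ℚ`-algebra structure on `F1 N`. -/
theorem finrank_full1_eq_bar1_of_algebra [inst : Algebra ℚ ↥(F1 N)] :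
    Module.finrank ℚ⟮jFull1 N⟯ ↥(F1 N) = Module.finrank Kb⟮jgen1 N⟯ ↥(F1Bar N) := by
  obtain rfl : inst = algF1 N := Subsingleton.elim _ _
  exact finrank_full1_eq_finrank_bar1 N

/-- the common degree `n = [ℚ̄(X₁(N)) : ℚ̄(j)]` -/
abbrev deg1 : ℕ := Module.finrank Kb⟮jgen1 N⟯ ↥(F1Bar N)

/-- `[F1 : ℚ(X)] = n` (the `j`-line structure of `Inputs`). -/
theorem finrank_ratFunc_full1 :
    FiniteDimensional (RatFunc ℚ) ↥(F1 N) ∧
      Module.finrank (RatFunc ℚ) ↥(F1 N) = deg1 N := by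
  haveI := (finrank_full1_le_bar1_of_algebra N).1
  have h := finrank_ratAlgebra (transcendental_jFull1 N)
  exact ⟨h.1, h.2.trans (finrank_full1_eq_bar1_of_algebra N)⟩

/-- `[F1Bar : ℚ̄(X)] = n`. -/
theorem finrank_ratFunc_bar1 :
    FiniteDimensional (RatFunc Kb) ↥(F1Bar N) ∧
      Module.finrank (RatFunc Kb) ↥(F1Bar N) = deg1 N := by
  haveI := finiteDimensional_bar1 N
  have h := finrank_ratAlgebra (transcendental_jgen1 N)
  exact ⟨h.1, h.2⟩

instance finiteDimensional_ratFunc_full1 : FiniteDimensional (RatFunc ℚ) ↥(F1 N) :=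
  (finrank_ratFunc_full1 N).1

instance finiteDimensional_ratFunc_bar1 : FiniteDimensional (RatFunc Kb) ↥(F1Bar N) :=
  (finrank_ratFunc_bar1 N).1

/-- **Basis transfer (i), `RatFunc` form**: a `ℚ(j)`-basis of `F1` is a `ℚ̄(j)`-basis of `F1Bar`. -/
theorem exists_basis_bar1 {ι : Type*}
    (b : Module.Basis ι (RatFunc ℚ) ↥(F1 N)) :
    ∃ b' : Module.Basis ι (RatFunc Kb) ↥(F1Bar N),
      ∀ i, b' i = embBar1 N (b i) :=
  haveI := (finrank_full1_le_bar1_of_algebra N).1
  haveI := finiteDimensional_bar1 N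
  exists_basis_map (transcendental_jFull1 N) (transcendental_jgen1 N) (embBar1 N)
    (embBar1_algebraMap_rat N) (embBar1_jFull1 N) (fun y : ↥(F1 N) => y) (adjoin_range_embBar1 N)
    (finrank_full1_le_bar1_of_algebra N).2 b

variable (c : Cover) [c.Good ℚ] [c.Good Kb]

/-- The comparison homomorphism `R_ℚ = F1 ⊗ ℚ(μ) → R_L = F1Bar ⊗ ℚ̄(μ)`. -/
def compRBar1 :
    RAlg c ℚ ↥(F1 N) →+* RAlg c Kb ↥(F1Bar N) :=
  compR c ℚ Kb (embBar1 N) (embBar1_algebraMap_ratFunc N)

omit [CharZero1 N] in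
@[simp] theorem compRBar1_tmul (f : ↥(F1 N)) (m : MuLine c ℚ) :
    compRBar1 N c (f ⊗ₜ[RatFunc ℚ] m) = embBar1 N f ⊗ₜ[RatFunc Kb] muMap c ℚ Kb m :=
  compR_tmul c ℚ Kb (embBar1 N) (embBar1_algebraMap_ratFunc N) f m

/-- **Base change isomorphism (i)**: `ℚ̄(μ) ⊗_{ℚ(μ)} R_ℚ ≃ R_L`. -/
def baseChangeEquivBar1 :
    letI := muAlgebra c ℚ ↥(F1 N)
    letI := muAlgebra c Kb ↥(F1Bar N)
    letI := algMuMu c ℚ Kb
    MuLine c Kb ⊗[MuLine c ℚ] RAlg c ℚ ↥(F1 N)
      ≃ₐ[MuLine c Kb] RAlg c Kb ↥(F1Bar N) :=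
  haveI := (finrank_ratFunc_full1 N).1
  baseChangeEquiv c ℚ Kb (embBar1 N) (embBar1_algebraMap_ratFunc N)
    (Module.finBasis (RatFunc ℚ) ↥(F1 N))
    (exists_basis_bar1 N (Module.finBasis (RatFunc ℚ) ↥(F1 N))).choose
    (exists_basis_bar1 N (Module.finBasis (RatFunc ℚ) ↥(F1 N))).choose_spec

theorem baseChangeEquivBar1_tmul (m : MuLine c Kb)
    (x : RAlg c ℚ ↥(F1 N)) :
    letI := muAlgebra c ℚ ↥(F1 N)
    letI := algMuMu c ℚ Kb
    baseChangeEquivBar1 N c (m ⊗ₜ x)
      = incMu c Kb ↥(F1Bar N) m * compRBar1 N c x :=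
  haveI := (finrank_ratFunc_full1 N).1
  baseChangeEquiv_tmul c ℚ Kb (embBar1 N) (embBar1_algebraMap_ratFunc N) _ _ _ m x

theorem compRBar1_injective : Function.Injective (compRBar1 N c) :=
  haveI := (finrank_ratFunc_full1 N).1
  compR_injective c ℚ Kb (embBar1 N) (embBar1_algebraMap_ratFunc N)
    (Module.finBasis (RatFunc ℚ) ↥(F1 N))
    (exists_basis_bar1 N (Module.finBasis (RatFunc ℚ) ↥(F1 N))).choose
    (exists_basis_bar1 N (Module.finBasis (RatFunc ℚ) ↥(F1 N))).choose_spec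

end CharZeroInst

end Fermat.Agent.S48.B.K3.Forms1

end
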