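import Mathlib
import Fermat.Agent.S48.B.K3.Forms1
import Fermat.Agent.S18.C.SurfaceAAbs
import Fermat.Agent.S18.C.GaussZl
import Fermat.Agent.S18.C.SurfaceFree
import Fermat.Agent.S18.C.EvalBridge
import Fermat.Agent.S18.C.CovGauss

/-!
# PROJECT D (S48), part B, seam [B-K3] (helper13).  File 3: (S2a) `ℓ ∤ d` for `X₁(N)`

Twin of `S18/C/SurfaceA.lean` + `S18/C/SurfaceAFinal.lean`.  `V = ℤ_(ℓ) ⊆ ℚ` (`GaussZl.Over ℓ V`),
`B_Q = BRing c V`, `C_Q = CInt c (F1 N) V` the integral closure of `B_Q` in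
`R_Q = F1 N ⊗_{ℚ(j)} ℚ(μ)`.  For EVERY `B_Q`-basis `b` of `C_Q`, the discriminant `discr B_Q b` is a
unit of the Gauss valuation ring `Wmu` of the `μ`-line, hence is not divisible by `ℓ` in `B_Q`.

The Gauss valuation ring `OwFull ℓ N` of the original and its package
`GaussSep.exists_hypRat_isUnit_discr` are replaced by the witness `O1 ℓ N` of the input
`[Gauss1 N ℓ]`; finite dimensionality of `F1 N` over `ℚ(j)` comes from `[CharZero1 N]`.
-/

set_option autoImplicit false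
set_option linter.unusedSectionVars false
set_option linter.style.haveILetI false
set_option warn.classDefReducibility false

attribute [-instance] DivisionRing.toRatAlgebra

noncomputable section

namespace Fermat.Agent.S48.B.K3.SurfaceA1

open Polynomial ModularCurve
open Fermat.Agent.S18.C
open Fermat.Agent.S18.C.Defs Fermat.Agent.S18.C.SurfaceDefs Fermat.Agent.S18.C.BRingLocal
open Fermat.Agent.S18.C.UnramVal Fermat.Agent.S18.C.GaussRat
open Fermat.Agent.S18.C.GaussZl Fermat.Agent.S18.C.RAlgStructure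
open Fermat.Agent.S48.B.Defs.Model Fermat.Agent.S48.B.K3.Inputs Fermat.Agent.S48.B.K3.Forms1

variable (ℓ : ℕ) [Fact ℓ.Prime] (N : ℕ) [NeZero N] [Gauss1 N ℓ]

attribute [local instance] algBelow

/-! ### the Gauss valuation ring of `ℚ(X₁(N))` (input `Gauss1`) -/

/-- **the Gauss valuation ring of `ℚ(X₁(N))` at `ℓ`** (the witness of the input `Gauss1 N ℓ`) -/
def O1 : ValuationSubring ↥(F1 N) := (Gauss1.out (N := N) (ℓ := ℓ)).choose

theorem mem_O1_iff (f : RatFunc ℚ) :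
    algebraMap (RatFunc ℚ) ↥(F1 N) f ∈ O1 ℓ N ↔ f ∈ Vrat ℓ 1 :=
  (Gauss1.out (N := N) (ℓ := ℓ)).choose_spec.1 f

/-- the trace of `O1` on the `j`-line -/
abbrev Vrat1 : ValuationSubring (RatFunc ℚ) := below (RatFunc ℚ) (O1 ℓ N)

/-- it is the Gauss valuation ring of the `j`-line (which does not depend on the level) -/
theorem Vrat1_eq : Vrat1 ℓ N = Vrat ℓ 1 := by
  ext f
  exact mem_O1_iff ℓ N f

theorem mem_Vrat1_iff (f : RatFunc ℚ) :
    f ∈ Vrat1 ℓ N ↔ ∃ P Q : ℤ[X], Q.map (Int.castRingHom (ZMod ℓ)) ≠ 0 ∧ f * ofZ Q = ofZ P := by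
  rw [Vrat1_eq]
  exact mem_Vrat_iff ℓ 1 f

theorem Vrat1_eq_gaussRing {V : ValuationSubring ℚ} (hV : Over ℓ V) :
    Vrat1 ℓ N = GaussRing.gaussRing V := by
  rw [Vrat1_eq]
  exact Vrat_eq_gaussRing 1 hV

theorem discRing_le_Vrat1 {V : ValuationSubring ℚ} (hV : Over ℓ V) :
    discRing V ≤ (Vrat1 ℓ N).toSubring := by
  rw [Vrat1_eq]
  exact discRing_le_Vrat 1 hV

/-- the unramified package of the input `Gauss1` -/
theorem exists_hyp1 :
    ∃ (κ₀ κ : Type) (_ : Field κ₀) (_ : Field κ) (_ : Algebra κ₀ κ)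
      (_ : Algebra.IsSeparable κ₀ κ) (red : ↥(O1 ℓ N) →+* κ)
      (redV : ↥(Vrat1 ℓ N) →+* κ₀)
      (t : Fin (Module.finrank (RatFunc ℚ) ↥(F1 N)) → ↥(O1 ℓ N)),
      Hyp (RatFunc ℚ) (O1 ℓ N) red redV t :=
  (Gauss1.out (N := N) (ℓ := ℓ)).choose_spec.2

variable (c : Cover) [c.Good ℚ]


/-- the `μ`-line to `RatFunc ℚ` -/
abbrev unMu : MuLine c ℚ →+* RatFunc ℚ := ((MuLine.of c ℚ).symm : MuLine c ℚ →+* RatFunc ℚ)

/-- **the Gauss valuation ring of the `μ`-line** -/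
def Wmu : ValuationSubring (MuLine c ℚ) := (Vrat1 ℓ N).comap (unMu c)

theorem mem_Wmu {m : MuLine c ℚ} : m ∈ Wmu ℓ N c ↔ (MuLine.of c ℚ).symm m ∈ Vrat1 ℓ N := Iff.rfl

/-- the hypothesis: the covering map respects the Gauss valuation rings -/
def Hcov : Prop :=
  ∀ f ∈ Vrat1 ℓ N, (MuLine.of c ℚ).symm (algebraMap (RatFunc ℚ) (MuLine c ℚ) f) ∈ Vrat1 ℓ N

variable {ℓ N c}

section

variable {V : ValuationSubring ℚ}

theorem BRing_le_Wmu (hV : Over ℓ V) : BRing c V ≤ (Wmu ℓ N c).toSubring := by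
  intro m hm
  rw [mem_BRing] at hm
  exact discRing_le_Vrat1 ℓ N hV hm

theorem ofZ_mem_discRing (P : ℤ[X]) : ofZ P ∈ discRing V :=
  algebraMap_mem_discRing V (map_int_mem_polyV P)

theorem ofZ_ne_zero {Q : ℤ[X]} (hQ : Q.map (Int.castRingHom (ZMod ℓ)) ≠ 0) : ofZ Q ≠ 0 := by
  intro h
  apply hQ
  have h1 : Q.map (Int.castRingHom ℚ) = 0 := by
    have := (map_eq_zero_iff _ (IsFractionRing.injective ℚ[X] (RatFunc ℚ))).mp h
    exact this
  have h2 : Q = 0 :=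
    (Polynomial.map_eq_zero_iff (RingHom.injective_int (Int.castRingHom ℚ))).mp h1
  rw [h2, Polynomial.map_zero]

/-- `Wmu` is a localisation of `B_Q` -/
theorem hloc (w : MuLine c ℚ) (hw : w ∈ (Wmu ℓ N c).toSubring) :
    ∃ s ∈ BRing c V, s ≠ 0 ∧ s⁻¹ ∈ (Wmu ℓ N c).toSubring ∧ s * w ∈ BRing c V := by
  obtain ⟨P, Q, hQ, h⟩ := (mem_Vrat1_iff ℓ N ((MuLine.of c ℚ).symm w)).mp hw
  have hQ0 := ofZ_ne_zero hQ
  refine ⟨MuLine.of c ℚ (ofZ Q), ?_, ?_, ?_, ?_⟩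
  · rw [mem_BRing, AlgEquiv.symm_apply_apply]
    exact ofZ_mem_discRing Q
  · exact (map_ne_zero_iff _ (MuLine.of c ℚ).injective).mpr hQ0
  · show (MuLine.of c ℚ).symm ((MuLine.of c ℚ (ofZ Q))⁻¹) ∈ Vrat1 ℓ N
    rw [map_inv₀, AlgEquiv.symm_apply_apply, mem_Vrat1_iff]
    exact ⟨1, Q, hQ, by rw [inv_mul_cancel₀ hQ0, ofZ, Polynomial.map_one, map_one]⟩
  · rw [mem_BRing, map_mul, AlgEquiv.symm_apply_apply, mul_comm, h]
    exact ofZ_mem_discRing P

end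

/-- `Wmu` is integrally closed in the `μ`-line -/
theorem hWcl (m : MuLine c ℚ) (hm : IsIntegral ↥(Wmu ℓ N c).toSubring m) :
    m ∈ (Wmu ℓ N c).toSubring := by
  have h1 : IsIntegral ↥(Wmu ℓ N c) m := hm
  obtain ⟨y, hy⟩ := (IsIntegrallyClosed.isIntegral_iff (R := ↥(Wmu ℓ N c))
    (K := MuLine c ℚ)).mp h1
  rw [← hy]
  exact y.2

section Main

/-- the restriction of the covering map to the Gauss valuation rings -/
def covW (hcov : Hcov ℓ N c) : ↥(Vrat1 ℓ N) →+* ↥(Wmu ℓ N c).toSubring :=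
  RingHom.codRestrict ((algebraMap (RatFunc ℚ) (MuLine c ℚ)).comp (Vrat1 ℓ N).subtype)
    (Wmu ℓ N c).toSubring (fun x => hcov x.1 x.2)

theorem coe_covW (hcov : Hcov ℓ N c) (x : ↥(Vrat1 ℓ N)) :
    ((covW hcov x : ↥(Wmu ℓ N c).toSubring) : MuLine c ℚ) =
      algebraMap (RatFunc ℚ) (MuLine c ℚ) (x : RatFunc ℚ) := rfl

/-- `OwFull → R_Q` -/
def toR : ↥(O1 ℓ N) →+* RAlg c ℚ ↥(F1 N) :=
  ((incF c ℚ ↥(F1 N) : _ →+* _)).comp (O1 ℓ N).subtype

theorem toR_apply (x : ↥(O1 ℓ N)) :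
    toR (c := c) x = incF c ℚ ↥(F1 N) (x : ↥(F1 N)) :=
  rfl

theorem toR_algebraMap (r : ↥(Vrat1 ℓ N)) :
    toR (c := c) (algebraMap ↥(Vrat1 ℓ N) ↥(O1 ℓ N) r) =
      algebraMap (MuLine c ℚ) (RAlg c ℚ ↥(F1 N))
        (algebraMap (RatFunc ℚ) (MuLine c ℚ) (r : RatFunc ℚ)) := by
  rw [toR_apply, algebraMap_below_eq, coe_incl,
    ← IsScalarTower.algebraMap_apply (RatFunc ℚ) (MuLine c ℚ)
      (RAlg c ℚ ↥(F1 N))]
  exact (incF c ℚ ↥(F1 N)).commutes (r : RatFunc ℚ)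

/-- **(S2a), unit form**: for every `B_Q`-basis `b` of `C_Q`, the discriminant is a unit of the
Gauss valuation ring of the `μ`-line. -/
theorem exists_inv_discr_mem_Wmu [CharZero1 N] (hcov : Hcov ℓ N c)
    {V : ValuationSubring ℚ} (hV : Over ℓ V)
    {ι : Type*} [Fintype ι] [DecidableEq ι]
    (b : Module.Basis ι ↥(BRing c V) ↥(CInt c ↥(F1 N) V)) :
    ∃ u ∈ Wmu ℓ N c, u * ((Algebra.discr ↥(BRing c V) b : ↥(BRing c V)) : MuLine c ℚ) = 1 := by
  classical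
  obtain ⟨κ₀, κ, _, _, _, _, red, redV, t₀, h⟩ := exists_hyp1 ℓ N
  have hu := h.isUnit_discr
  set n := Module.finrank (RatFunc ℚ) ↥(F1 N) with hn
  -- the `ℚ(μ)`-basis of `R_Q`
  set t : Module.Basis (Fin n) (MuLine c ℚ) (RAlg c ℚ ↥(F1 N)) :=
    muBasis c ℚ ↥(F1 N) h.basisE with ht
  have htb : ∀ i, t i = toR (c := c) (h.basisV i) := by
    intro i
    rw [ht, muBasis_apply, h.basisE_apply, h.basisV_apply, toR_apply]
  -- integrality
  have hint : ∀ i, IsIntegral ↥(Wmu ℓ N c).toSubring (t i) := by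
    intro i
    have := h.finite
    obtain ⟨p, hp, hpx⟩ := IsIntegral.of_finite ↥(Vrat1 ℓ N) (h.basisV i)
    refine ⟨p.map (covW hcov), hp.map _, ?_⟩
    rw [Polynomial.eval₂_map, htb]
    have h1 := Polynomial.hom_eval₂ p (algebraMap ↥(Vrat1 ℓ N) ↥(O1 ℓ N)) (toR (c := c))
      (h.basisV i)
    rw [hpx, map_zero] at h1
    rw [h1]
    congr 1
    ext r
    exact (toR_algebraMap r).symm
  -- the trace matrix
  set GW : Matrix (Fin n) (Fin n) ↥(Wmu ℓ N c).toSubring :=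
    (covW hcov).mapMatrix (Algebra.traceMatrix ↥(Vrat1 ℓ N) h.basisV) with hGWdef
  have hGW : ∀ i j, ((GW i j : ↥(Wmu ℓ N c).toSubring) : MuLine c ℚ) =
      Algebra.trace (MuLine c ℚ) (RAlg c ℚ ↥(F1 N)) (t i * t j) := by
    intro i j
    rw [hGWdef, RingHom.mapMatrix_apply, Matrix.map_apply, coe_covW, Algebra.traceMatrix_apply,
      Algebra.traceForm_apply, htb i, htb j, ← map_mul (toR (c := c))]
    exact (trace_map ((algebraMap (RatFunc ℚ) (MuLine c ℚ)).comp (Vrat1 ℓ N).subtype)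
      (toR (c := c)) h.basisV t (fun r => toR_algebraMap r) htb (h.basisV i * h.basisV j)).symm
  have hdet : IsUnit GW.det := by
    rw [hGWdef, ← RingHom.map_det]
    exact hu.map (covW hcov)
  exact SurfaceAAbs.exists_inv_discr_mem b (BRing_le_Wmu hV) (hloc (V := V)) t hint
    hWcl GW hGW hdet

/-- **(S2a)**: `ℓ` does not divide the discriminant of any `B_Q`-basis of `C_Q` (the shape of
`EvalBridge.isUnit_iff_pointwise_B`). -/
theorem not_constB_dvd_discr [CharZero1 N] (hcov : Hcov ℓ N c)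
    {V : ValuationSubring ℚ} (hV : Over ℓ V)
    {ι : Type*} [Fintype ι] [DecidableEq ι]
    (b : Module.Basis ι ↥(BRing c V) ↥(CInt c ↥(F1 N) V)) :
    ¬ EvalBridge.constB c V (ell hV) ∣ Algebra.discr ↥(BRing c V) b := by
  rintro ⟨e, he⟩
  obtain ⟨u, hu, hud⟩ := exists_inv_discr_mem_Wmu hcov hV b
  have he' : ((Algebra.discr ↥(BRing c V) b : ↥(BRing c V)) : MuLine c ℚ) =
      MuLine.of c ℚ (RatFunc.C (ℓ : ℚ)) * (e : MuLine c ℚ) := by
    rw [he, Subring.coe_mul, EvalBridge.constB_eq, coe_toB, EvalBridge.coe_constD, coe_ell]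
  set x : RatFunc ℚ := (MuLine.of c ℚ).symm (u * (e : MuLine c ℚ)) with hx
  have hxV : x ∈ Vrat1 ℓ N :=
    (Wmu ℓ N c).mul_mem _ _ hu (BRing_le_Wmu (N := N) hV e.2)
  have h1 : (1 : RatFunc ℚ) = RatFunc.C (ℓ : ℚ) * x := by
    have h2 : MuLine.of c ℚ (RatFunc.C (ℓ : ℚ) * x) = 1 := by
      rw [map_mul, hx, AlgEquiv.apply_symm_apply, ← hud, he']
      ring
    have h3 := congrArg (MuLine.of c ℚ).symm h2
    rw [AlgEquiv.symm_apply_apply, map_one] at h3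
    exact h3.symm
  rw [Vrat1_eq_gaussRing ℓ N hV] at hxV
  exact GaussRing.not_C_mul_of_isUnit (valuation_ell_lt_one hV)
    (d := (1 : ↥(GaussRing.gaussRing V))) isUnit_one ⟨x, hxV, h1⟩

/-- **(S2a)** for the chosen basis `SurfaceFree.basisCInt`: `ℓ ∤ d`. -/
theorem not_constB_dvd_discrCInt [CharZero1 N] (hcov : Hcov ℓ N c)
    {V : ValuationSubring ℚ} (hV : Over ℓ V) [IsDiscreteValuationRing ↥V] :
    ¬ EvalBridge.constB c V (ell hV) ∣
      SurfaceFree.discrCInt c V ↥(F1 N) :=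
  not_constB_dvd_discr hcov hV (SurfaceFree.basisCInt c V ↥(F1 N))

end Main

end Fermat.Agent.S48.B.K3.SurfaceA1

end
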