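import Mathlib
import Fermat.Agent.S48.B.K3.SurfaceA1

/-!
# PROJECT D (S48), part B, seam [B-K3] (helper13).  File 3b: (S2a) `ℓ ∤ d` for `X₁(N)`, final form

Twin of `S18/C/SurfaceAFinal.lean`: `SurfaceA1.Hcov` is discharged by `CovGauss.covMap_mem_Vrat`
(the Gauss valuation ring of the `j`-line does not depend on the level).
-/

set_option autoImplicit false
set_option linter.unusedSectionVars false

noncomputable section

namespace Fermat.Agent.S48.B.K3.SurfaceA1Final

open ModularCurve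
open Fermat.Agent.S18.C
open Fermat.Agent.S18.C.Defs Fermat.Agent.S18.C.SurfaceDefs Fermat.Agent.S18.C.GaussZl
open Fermat.Agent.S48.B.Defs.Model Fermat.Agent.S48.B.K3.Inputs Fermat.Agent.S48.B.K3.Forms1
open Fermat.Agent.S48.B.K3.SurfaceA1

variable {ℓ : ℕ} [Fact ℓ.Prime] {N : ℕ} [NeZero N] [Gauss1 N ℓ] {c : Cover} [c.Good ℚ]

section Final

variable [c.Good (ZMod ℓ)] [CharZero1 N] {V : ValuationSubring ℚ}

/-- **`Hcov`**: the covering map respects the Gauss valuation rings (the Gauss valuation ring of the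
`j`-line does not depend on the level: `CovGauss.covMap_mem_Vrat` at level `1`). -/
theorem hcov : Hcov ℓ N c := fun f hf => by
  rw [Vrat1_eq] at hf ⊢
  exact CovGauss.covMap_mem_Vrat ℓ 1 c hf

/-- **(S2a)**: the discriminant of every `B_Q`-basis of `C_Q` is a unit of the Gauss valuation ring
of the `μ`-line. -/
theorem exists_inv_discr_mem_Wmu (hV : Over ℓ V)
    {ι : Type*} [Fintype ι] [DecidableEq ι]
    (b : Module.Basis ι ↥(BRing c V) ↥(CInt c ↥(F1 N) V)) :
    ∃ u ∈ Wmu ℓ N c, u * ((Algebra.discr ↥(BRing c V) b : ↥(BRing c V)) : MuLine c ℚ) = 1 :=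
  SurfaceA1.exists_inv_discr_mem_Wmu hcov hV b

/-- **(S2a)**: `ℓ ∤ discr b` for every `B_Q`-basis `b` of `C_Q`. -/
theorem not_constB_dvd_discr (hV : Over ℓ V)
    {ι : Type*} [Fintype ι] [DecidableEq ι]
    (b : Module.Basis ι ↥(BRing c V) ↥(CInt c ↥(F1 N) V)) :
    ¬ EvalBridge.constB c V (ell hV) ∣ Algebra.discr ↥(BRing c V) b :=
  SurfaceA1.not_constB_dvd_discr hcov hV b

/-- **(S2a)** for the chosen basis: `ℓ ∤ discrCInt`. -/
theorem not_constB_dvd_discrCInt (hV : Over ℓ V)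
    [IsDiscreteValuationRing ↥V] :
    ¬ EvalBridge.constB c V (ell hV) ∣
      SurfaceFree.discrCInt c V ↥(F1 N) :=
  SurfaceA1.not_constB_dvd_discrCInt hcov hV

/-- **(S2a)** for `V = A ∩ ℚ`, `A` a valuation ring of `ℚ̄` over `ℓ`, any generator `l` of the
maximal ideal given as `ell`. -/
theorem not_constB_dvd_discrCInt_comap
    (A : ValuationSubring (AlgebraicClosure ℚ)) (hA : A.LiesOverPrime ℓ)
    [IsDiscreteValuationRing ↥(A.comap (algebraMap ℚ (AlgebraicClosure ℚ)))] :
    ¬ EvalBridge.constB c (A.comap (algebraMap ℚ (AlgebraicClosure ℚ)))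
        (ell (over_comap ℓ A hA)) ∣
      SurfaceFree.discrCInt c (A.comap (algebraMap ℚ (AlgebraicClosure ℚ)))
        ↥(F1 N) :=
  not_constB_dvd_discrCInt (over_comap ℓ A hA)

end Final

end Fermat.Agent.S48.B.K3.SurfaceA1Final

end
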