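import Mathlib
import Fermat.Agent.S48.B.K3.SurfaceA1Final
import Fermat.Agent.S18.C.Surface

/-!
# PROJECT D (S48), part B, seam [B-K3] (helper13).  File 7: the arithmetic surface of `X₁(N)` is
# finite étale

Twin of the section `Bar` of `S18/C/SurfaceCA.lean` and of `S18/C/Surface.lean`.
`A` a valuation ring of `ℚ̄` over `ℓ`, `c` a cover with good reduction at `ℓ`, `F_L = F1Bar N`.
The integral closure `C_A = CInt c F_L A` of `B_A = BRing c A` in `F_L ⊗_{ℚ̄(j)} ℚ̄(μ)` is finite
free of rank `n = deg1 N` over `B_A` with unit discriminant, as soon as the discriminant `d` of the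
`ℚ`-level model does not vanish on the open unit disc.
-/

set_option autoImplicit false
set_option linter.unusedSectionVars false
set_option linter.style.haveILetI false

noncomputable section

namespace Fermat.Agent.S48.B.K3.Surface1

open Module Polynomial TensorProduct ModularCurve
open Fermat.Agent.S18.C
open Fermat.Agent.S18.C.Defs Fermat.Agent.S18.C.SurfaceDefs Fermat.Agent.S18.C.BRingLocal
open Fermat.Agent.S18.C.SurfaceFree Fermat.Agent.S18.C.BaseChangeR
open Fermat.Agent.S18.C.EvalBridge Fermat.Agent.S18.C.FinEt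
open Fermat.Agent.S18.C.SurfaceCA (VQ mem_VQ basisCA coe_basisCA discr_basisCA finEt_CA finrank_CA)
open Fermat.Agent.S48.B.Defs.Model Fermat.Agent.S48.B.K3.Inputs Fermat.Agent.S48.B.K3.Forms1

local notation "Kb" => AlgebraicClosure ℚ

/-! ### twin of the section `Bar` of `S18/C/SurfaceCA.lean` -/

section Bar

variable (N : ℕ) [NeZero N] [CharZero1 N]

/-- the degree `[F1 : ℚ(j)]` (`= deg1 N`, see `finrank_full_eq`). -/
abbrev nQ : ℕ := Module.finrank (RatFunc ℚ) ↥(F1 N)

variable (c : Cover) [c.Good ℚ] [c.Good Kb] (A : ValuationSubring Kb)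

variable [IsDiscreteValuationRing ↥(VQ A)]
  (hd : IsUnit (SurfaceFree.discrCInt c (VQ A) ↥(F1 N)))

/-- **The `B_A`-basis of `C_A = CInt c F_L A`**: the images under `compRBar` of the `B_Q`-basis
`basisCInt` of `C_Q`. -/
def basisCABar : Basis (Fin (nQ N)) (BRing c A) (CInt c ↥(F1Bar N) A) :=
  basisCA c ℚ Kb (VQ A) A (mem_VQ A) (embBar1 N) (embBar1_algebraMap_ratFunc N)
    (Module.finBasis (RatFunc ℚ) ↥(F1 N))
    (exists_basis_bar1 N (Module.finBasis (RatFunc ℚ) ↥(F1 N))).choose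
    (exists_basis_bar1 N (Module.finBasis (RatFunc ℚ) ↥(F1 N))).choose_spec hd

theorem coe_basisCABar (i : Fin (nQ N)) :
    ((basisCABar N c A hd i : CInt c ↥(F1Bar N) A) :
        RAlg c Kb ↥(F1Bar N)) =
      compRBar1 N c ((SurfaceFree.basisCInt c (VQ A) ↥(F1 N) i :
        CInt c ↥(F1 N) (VQ A)) : RAlg c ℚ ↥(F1 N)) :=
  coe_basisCA c ℚ Kb (VQ A) A (mem_VQ A) (embBar1 N) (embBar1_algebraMap_ratFunc N) _ _ _ hd i

theorem discr_basisCABar :
    Algebra.discr (BRing c A) (basisCABar N c A hd) =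
      bMap c (algebraMap ℚ Kb) (VQ A) A (mem_VQ A)
        (SurfaceFree.discrCInt c (VQ A) ↥(F1 N)) :=
  discr_basisCA c ℚ Kb (VQ A) A (mem_VQ A) (embBar1 N) (embBar1_algebraMap_ratFunc N) _ _ _ hd

include hd in
/-- **(Σ2)** `FinEt (BRing c A) (CInt c F_L A)` from the unit discriminant over `ℤ_(ℓ)`. -/
theorem finEt_CABar : FinEt (BRing c A) (CInt c ↥(F1Bar N) A) :=
  finEt_CA c ℚ Kb (VQ A) A (mem_VQ A) (embBar1 N) (embBar1_algebraMap_ratFunc N)
    (Module.finBasis (RatFunc ℚ) ↥(F1 N))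
    (exists_basis_bar1 N (Module.finBasis (RatFunc ℚ) ↥(F1 N))).choose
    (exists_basis_bar1 N (Module.finBasis (RatFunc ℚ) ↥(F1 N))).choose_spec hd

include hd in
theorem finrank_CABar :
    Module.finrank (BRing c A) (CInt c ↥(F1Bar N) A) = deg1 N := by
  rw [finrank_CA c ℚ Kb (VQ A) A (mem_VQ A) (embBar1 N) (embBar1_algebraMap_ratFunc N)
    (Module.finBasis (RatFunc ℚ) ↥(F1 N))
    (exists_basis_bar1 N (Module.finBasis (RatFunc ℚ) ↥(F1 N))).choose
    (exists_basis_bar1 N (Module.finBasis (RatFunc ℚ) ↥(F1 N))).choose_spec hd]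
  exact (finrank_ratFunc_full1 N).2

theorem finrank_full_eq : nQ N = deg1 N := (finrank_ratFunc_full1 N).2

end Bar

/-! ### twin of `S18/C/Surface.lean` -/

section Surface

variable {ℓ : ℕ} [Fact ℓ.Prime] (N : ℕ) [NeZero N] [CharZero1 N] [Gauss1 N ℓ]
  (c : Cover) [c.Good ℚ] [c.Good Kb] [c.Good (ZMod ℓ)] (A : ValuationSubring Kb)

/-- The hypothesis (S2b): the discriminant of the `ℚ`-level model vanishes nowhere on the open unit
disc of `A`. -/
def PointwiseNonvanishing [IsDiscreteValuationRing ↥(VQ A)] : Prop :=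
  ∀ (t : Kb) (ht : A.valuation t < 1), evDiscAtB (algebraMap ℚ Kb) A c t ht
    (discrCInt c (VQ A) ↥(F1 N)) ≠ 0

/-- **(Σ1)** the discriminant of the `ℚ`-level model is a unit of `B_Q`. -/
theorem isUnit_discrCInt (hA : A.LiesOverPrime ℓ)
    [IsDiscreteValuationRing ↥(VQ A)] (hb : PointwiseNonvanishing N c A) :
    IsUnit (discrCInt c (VQ A) ↥(F1 N)) :=
  (isUnit_iff_pointwise_B (algebraMap ℚ Kb) A c
    (GaussZl.maximalIdeal_eq_span (GaussZl.over_comap ℓ A hA)) _).mpr
    ⟨SurfaceA1Final.not_constB_dvd_discrCInt_comap A hA, hb⟩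

/-- **`hS`: the arithmetic surface `C_A / B_A` is finite étale.** -/
theorem finEt_of_pointwise (hA : A.LiesOverPrime ℓ)
    [IsDiscreteValuationRing ↥(VQ A)] (hb : PointwiseNonvanishing N c A) :
    FinEt (BRing c A) (CInt c ↥(F1Bar N) A) :=
  finEt_CABar N c A (isUnit_discrCInt N c A hA hb)

/-- the rank of the arithmetic surface is `ψ(N)` -/
theorem finrank_of_pointwise (hA : A.LiesOverPrime ℓ)
    [IsDiscreteValuationRing ↥(VQ A)] (hb : PointwiseNonvanishing N c A) :
    Module.finrank (BRing c A) (CInt c ↥(F1Bar N) A) = deg1 N :=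
  finrank_CABar N c A (isUnit_discrCInt N c A hA hb)

/-- the basis of `C_A` obtained from the `ℚ`-level basis, with unit discriminant -/
theorem isUnit_discr_basisCABar (hA : A.LiesOverPrime ℓ)
    [IsDiscreteValuationRing ↥(VQ A)] (hb : PointwiseNonvanishing N c A) :
    IsUnit (Algebra.discr (BRing c A)
      (basisCABar N c A (isUnit_discrCInt N c A hA hb))) :=
  (finEt_of_pointwise N c A hA hb).isUnit_discr _

end Surface

end Fermat.Agent.S48.B.K3.Surface1

end
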