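import Mathlib
import Fermat.Agent.S48.B.K3.Forms1
import Fermat.Agent.S18.C.NormalLinkBar

/-!
# PROJECT D (S48), part B, seam [B-K3] (helper13).  File 4: the normal link `C_ℚ ⟶ C_D` for `X₁(N)`

Twin of the sections `Instances` of `S18/C/NormalLink.lean` and `S18/C/NormalLinkBar.lean` (the
generic sections of these files are imported untouched; `ratTensorBijBar` does not mention the level).
-/

set_option autoImplicit false
set_option linter.unusedSectionVars false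
set_option linter.style.haveILetI false

noncomputable section

namespace Fermat.Agent.S48.B.K3.NormalLink1

open Polynomial TensorProduct
open ModularCurve
open Fermat.Agent.S18.C
open Fermat.Agent.S18.C.Defs Fermat.Agent.S18.C.SurfaceDefs Fermat.Agent.S18.C.BaseChangeR
  Fermat.Agent.S18.C.PointsDisc Fermat.Agent.S18.C.NormalLink
open Fermat.Agent.S48.B.Defs.Model Fermat.Agent.S48.B.K3.Inputs Fermat.Agent.S48.B.K3.Forms1

local notation "Kb" => AlgebraicClosure ℚ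

variable (N : ℕ) [NeZero N] [CharZero1 N] (c : Cover) [c.Good ℚ] [c.Good Kb]
  (V : ValuationSubring ℚ)

/-- **(ii)** for `ℚ → ℚ̄`. -/
theorem exists_list_of_isIntegral_polyBar (hrat : RatTensorBij c ℚ Kb)
    {x : RAlg c Kb ↥(F1Bar N)}
    (hx : (polyR c Kb (F' := ↥(F1Bar N))).IsIntegralElem x) :
    ∃ l : List (CInt c ↥(F1 N) V × Kb),
      x = (l.map fun p => compRBar1 N c (p.1 : RAlg c ℚ ↥(F1 N)) *
        constR c Kb p.2).sum := by
  haveI := (finrank_ratFunc_full1 N).1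
  haveI := NormalBaseChange.isGalois_algebraicClosure_rat
  exact exists_list_of_isIntegral_poly c ℚ Kb (embBar1 N) (embBar1_algebraMap_ratFunc N)
    (Module.finBasis (RatFunc ℚ) ↥(F1 N))
    (exists_basis_bar1 N (Module.finBasis (RatFunc ℚ) ↥(F1 N))).choose
    (exists_basis_bar1 N (Module.finBasis (RatFunc ℚ) ↥(F1 N))).choose_spec
    V (hK_rat V) hrat hx

/-- **(iii)** for `ℚ → ℚ̄` and `D = ℚ̄[μ]_(μ - t)`. -/
theorem exists_list_of_isIntegral_fracRingBar (hrat : RatTensorBij c ℚ Kb) (t : Kb)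
    {x : RAlg c Kb ↥(F1Bar N)}
    (hx : IsIntegral (fracRing Kb (MuLine.mu c Kb) t) x) :
    ∃ q : Kb[X], q.eval t ≠ 0 ∧ ∃ l : List (CInt c ↥(F1 N) V × Kb),
      algebraMap (MuLine c Kb) (RAlg c Kb ↥(F1Bar N))
          (Polynomial.aeval (MuLine.mu c Kb) q) * x =
        (l.map fun p => compRBar1 N c (p.1 : RAlg c ℚ ↥(F1 N)) *
          constR c Kb p.2).sum := by
  haveI := (finrank_ratFunc_full1 N).1
  haveI := NormalBaseChange.isGalois_algebraicClosure_rat
  obtain ⟨q, hq, l, hl⟩ := exists_list_of_isIntegral c ℚ Kb (embBar1 N)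
    (embBar1_algebraMap_ratFunc N)
    (Module.finBasis (RatFunc ℚ) ↥(F1 N))
    (exists_basis_bar1 N (Module.finBasis (RatFunc ℚ) ↥(F1 N))).choose
    (exists_basis_bar1 N (Module.finBasis (RatFunc ℚ) ↥(F1 N))).choose_spec
    V (hK_rat V) (fracRing Kb (MuLine.mu c Kb) t) (evalNeZero t) (fracRing_hD c t) hrat hx
  exact ⟨q, hq, l, hl⟩

/-- **(iv)** for `ℚ → ℚ̄` and `D = ℚ̄[μ]_(μ - t)`: a point of the normalisation `C_D` of `D` in
`R_L` is determined by its values on `D` and on the image of `C_ℚ`. -/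
theorem ringHom_ext_fracRingBar (hrat : RatTensorBij c ℚ Kb) (t : Kb)
    (hC : ∀ cc : CInt c ↥(F1 N) V,
      IsIntegral (fracRing Kb (MuLine.mu c Kb) t)
        (compRBar1 N c (cc : RAlg c ℚ ↥(F1 N))))
    {E : Type*} [CommRing E] [IsDomain E]
    (ψ ψ' : integralClosure (fracRing Kb (MuLine.mu c Kb) t)
      (RAlg c Kb ↥(F1Bar N)) →+* E)
    (h1 : ∀ d : fracRing Kb (MuLine.mu c Kb) t, ψ (algebraMap _ _ d) = ψ' (algebraMap _ _ d))
    (h2 : ∀ cc : CInt c ↥(F1 N) V,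
      ψ ⟨compRBar1 N c (cc : RAlg c ℚ ↥(F1 N)), hC cc⟩ =
        ψ' ⟨compRBar1 N c (cc : RAlg c ℚ ↥(F1 N)), hC cc⟩)
    (h0 : ∀ q : Kb[X], q.eval t ≠ 0 →
      ψ (algebraMap _ _ (⟨Polynomial.aeval (MuLine.mu c Kb) q, aeval_mem_fracRing q⟩ :
        fracRing Kb (MuLine.mu c Kb) t)) ≠ 0) : ψ = ψ' := by
  haveI := (finrank_ratFunc_full1 N).1
  haveI := NormalBaseChange.isGalois_algebraicClosure_rat
  exact ringHom_ext_of_integral c ℚ Kb (embBar1 N) (embBar1_algebraMap_ratFunc N)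
    (Module.finBasis (RatFunc ℚ) ↥(F1 N))
    (exists_basis_bar1 N (Module.finBasis (RatFunc ℚ) ↥(F1 N))).choose
    (exists_basis_bar1 N (Module.finBasis (RatFunc ℚ) ↥(F1 N))).choose_spec
    V (hK_rat V) (fracRing Kb (MuLine.mu c Kb) t) (evalNeZero t) (fracRing_hD c t) hrat
    (fracRing_hMD c t) (fracRing_hLD c t) hC ψ ψ' h1 h2 (fun q hq => h0 q hq)

/-- **(T)** `Θ : R_ℚ ⊗[ℚ] ℚ̄ → R_L`, `r ⊗ a ↦ compRBar r * a` is bijective. -/
theorem theta_bijectiveBar :
    letI := algKR0 c ℚ ↥(F1 N)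
    Function.Bijective
      (theta c ℚ Kb (embBar1 N) (embBar1_algebraMap_ratFunc N)) :=
  haveI := (finrank_ratFunc_full1 N).1
  theta_bijective c ℚ Kb (embBar1 N) (embBar1_algebraMap_ratFunc N)
    (Module.finBasis (RatFunc ℚ) ↥(F1 N))
    (exists_basis_bar1 N (Module.finBasis (RatFunc ℚ) ↥(F1 N))).choose
    (exists_basis_bar1 N (Module.finBasis (RatFunc ℚ) ↥(F1 N))).choose_spec
    (ratTensorBijBar c)

/-- **(ii)**: every element of `R_L` integral over `ℚ̄[μ]` is a `ℚ̄`-combination of images of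
elements of `C_ℚ = CInt c F0 V`. -/
theorem exists_list_of_isIntegral_polyBar'
    {x : RAlg c Kb ↥(F1Bar N)}
    (hx : (polyR c Kb (F' := ↥(F1Bar N))).IsIntegralElem x) :
    ∃ l : List (CInt c ↥(F1 N) V × Kb),
      x = (l.map fun p => compRBar1 N c (p.1 : RAlg c ℚ ↥(F1 N)) *
        constR c Kb p.2).sum :=
  exists_list_of_isIntegral_polyBar N c V (ratTensorBijBar c) hx

/-- **(iii)**: every element of `R_L` integral over `D = ℚ̄[μ]_(μ - t)` is, up to a denominator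
`q(μ)` with `q(t) ≠ 0`, a `ℚ̄`-combination of images of elements of `C_ℚ`. -/
theorem exists_list_of_isIntegral_fracRingBar' (t : Kb)
    {x : RAlg c Kb ↥(F1Bar N)}
    (hx : IsIntegral (fracRing Kb (MuLine.mu c Kb) t) x) :
    ∃ q : Kb[X], q.eval t ≠ 0 ∧ ∃ l : List (CInt c ↥(F1 N) V × Kb),
      algebraMap (MuLine c Kb) (RAlg c Kb ↥(F1Bar N))
          (Polynomial.aeval (MuLine.mu c Kb) q) * x =
        (l.map fun p => compRBar1 N c (p.1 : RAlg c ℚ ↥(F1 N)) *
          constR c Kb p.2).sum :=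
  exists_list_of_isIntegral_fracRingBar N c V (ratTensorBijBar c) t hx

/-- **(iv)**: a point of the normalisation `C_D` of `D = ℚ̄[μ]_(μ - t)` in `R_L` is determined by
its values on `D` and on the image of `C_ℚ`. -/
theorem ringHom_ext_fracRingBar' (t : Kb)
    (hC : ∀ cc : CInt c ↥(F1 N) V,
      IsIntegral (fracRing Kb (MuLine.mu c Kb) t)
        (compRBar1 N c (cc : RAlg c ℚ ↥(F1 N))))
    {E : Type*} [CommRing E] [IsDomain E]
    (ψ ψ' : integralClosure (fracRing Kb (MuLine.mu c Kb) t)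
      (RAlg c Kb ↥(F1Bar N)) →+* E)
    (h1 : ∀ d : fracRing Kb (MuLine.mu c Kb) t, ψ (algebraMap _ _ d) = ψ' (algebraMap _ _ d))
    (h2 : ∀ cc : CInt c ↥(F1 N) V,
      ψ ⟨compRBar1 N c (cc : RAlg c ℚ ↥(F1 N)), hC cc⟩ =
        ψ' ⟨compRBar1 N c (cc : RAlg c ℚ ↥(F1 N)), hC cc⟩)
    (h0 : ∀ q : Kb[X], q.eval t ≠ 0 →
      ψ (algebraMap _ _ (⟨Polynomial.aeval (MuLine.mu c Kb) q, aeval_mem_fracRing q⟩ :
        fracRing Kb (MuLine.mu c Kb) t)) ≠ 0) : ψ = ψ' :=
  ringHom_ext_fracRingBar N c V (ratTensorBijBar c) t hC ψ ψ' h1 h2 h0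

end Fermat.Agent.S48.B.K3.NormalLink1

end
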