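import Mathlib
import Fermat.Agent.S48.B.K3.NormalLink1
import Fermat.Agent.S18.C.SurfaceB
import Fermat.Agent.S18.C.SurfaceBGen
import Fermat.Agent.S18.C.UnramFactors

/-!
# PROJECT D (S48), part B, seam [B-K3] (helper13).  File 5: (S2b) for `X₁(N)`, hypotheses-first

Twin of the `Main` sections of `S18/C/SurfaceBHyp.lean`, `S18/C/SurfaceB.lean`, of
`S18/C/SurfaceBGen.hgen_fracRing_smul` and of `S18/C/SurfaceBFinal.evDiscAtB_discrCInt_ne_zero_of_unram`:
for `A` a valuation subring of `ℚ̄` with `V = A ∩ ℚ` a discrete valuation ring and every point `t` of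
the open unit disc of `A`, the discriminant `d = discrCInt c V (F1 N)` of the normalisation `C_Q` of
`B_Q = V[μ]_(𝔪_V, μ)` in `R_Q = F1 N ⊗ ℚ(μ)` does not vanish at `t`, given the unramifiedness (U) of
the factors of `R_L = F1Bar N ⊗ ℚ̄(μ)` over the points of the open unit disc.

The generic parts (`SurfaceBHyp.beta`, `SurfaceB.betaFrac`, `SurfaceB.algEv`, `SurfaceBGen.constD`,
`SurfaceBGen.denD`, ...) are imported untouched.
-/

set_option autoImplicit false
set_option linter.style.haveILetI false
set_option linter.unusedSectionVars false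
set_option synthInstance.maxHeartbeats 400000

noncomputable section

namespace Fermat.Agent.S48.B.K3.SurfaceB1

open Polynomial TensorProduct ModularCurve AlgebraicCurve IntermediateField
open Fermat.Agent.S24.FF
open Fermat.Agent.S18.C
open Fermat.Agent.S18.C.Defs Fermat.Agent.S18.C.SurfaceDefs Fermat.Agent.S18.C.BRingLocal
open Fermat.Agent.S18.C.DiscRingLocal Fermat.Agent.S18.C.EvalBridge
open Fermat.Agent.S18.C.SurfaceFree Fermat.Agent.S18.C.BaseChangeR
open Fermat.Agent.S18.C.RAlgStructure Fermat.Agent.S18.C.RAlgFactors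
open Fermat.Agent.S18.C.PointsDisc Fermat.Agent.S18.C.PointsDisc2
open Fermat.Agent.S18.C.SurfaceBHyp (coe_bMap_eq_muMap beta coe_beta)
open Fermat.Agent.S18.C.SurfaceB (isFF_mu betaFrac algEv algebraMap_algEv BRing_le_fracRing
  evFrac_inclusion)
open Fermat.Agent.S18.C.SurfaceBGen (constD denD)
open Fermat.Agent.S18.C.NormalLink (constR)
open Fermat.Agent.S48.B.Defs.Model Fermat.Agent.S48.B.K3.Inputs Fermat.Agent.S48.B.K3.Forms1
open Fermat.Agent.S48.B.K3.NormalLink1

local notation "Kb" => AlgebraicClosure ℚ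

section Main

variable (N : ℕ) [NeZero N] [CharZero1 N] (c : Cover) [c.Good ℚ] [c.Good Kb]
  (A : ValuationSubring Kb)

set_option quotPrecheck false in
local notation "φ" => algebraMap ℚ Kb
set_option quotPrecheck false in
local notation "V" => ValuationSubring.comap A (algebraMap ℚ Kb)
set_option quotPrecheck false in
local notation "F0" => ↥(F1 N)
set_option quotPrecheck false in
local notation "FL" => ↥(F1Bar N)
set_option quotPrecheck false in
local notation "RQ" => RAlg c ℚ ↥(F1 N)
set_option quotPrecheck false in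
local notation "RL" => RAlg c Kb ↥(F1Bar N)
set_option quotPrecheck false in
local notation "μL" => MuLine.mu c Kb

/-- `compRBar` is compatible with the structure maps `B_Q → R_Q`, `B_A → R_L`. -/
theorem compRBar1_algebraMap (b : BRing c V) :
    compRBar1 N c (algebraMap (BRing c V) RQ b) =
      algebraMap (BRing c A) RL (bMap c φ V A (DiscRingLocal.mem_comap_iff φ A) b) := by
  show compRBar1 N c (algebraMap (MuLine c ℚ) RQ (b : MuLine c ℚ)) =
    algebraMap (MuLine c Kb) RL ((bMap c φ V A (DiscRingLocal.mem_comap_iff φ A) b : BRing c A) :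
      MuLine c Kb)
  rw [coe_bMap_eq_muMap]
  exact compR_incMu c ℚ Kb (embBar1 N) (embBar1_algebraMap_ratFunc N) (b : MuLine c ℚ)

variable [IsDiscreteValuationRing ↥(A.comap (algebraMap ℚ Kb))]

omit [c.Good ℚ] in
theorem finrank_RL_eq :
    Module.finrank (MuLine c Kb) RL = Module.finrank (RatFunc ℚ) F0 := by
  rw [show Module.finrank (MuLine c Kb) RL = Module.finrank (RatFunc Kb) FL from
    RAlgStructure.finrank_mu c Kb FL, (finrank_ratFunc_bar1 N).2, (finrank_ratFunc_full1 N).2]

variable (t : Kb) (ht : A.valuation t < 1)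

/-- `γ : C_Q → R_L` -/
def gammaR : CInt c F0 V →+* RL := (compRBar1 N c).comp (CInt c F0 V).val.toRingHom

theorem gammaR_apply (x : CInt c F0 V) : gammaR N c A x = compRBar1 N c (x : RQ) := rfl

theorem gammaR_algebraMap (b : BRing c V) :
    letI := muAlgebra c Kb FL
    gammaR N c A (algebraMap (BRing c V) (CInt c F0 V) b) =
      algebraMap (MuLine c Kb) RL ((betaFrac c A t ht b : fracRing Kb μL t) : MuLine c Kb) := by
  letI := muAlgebra c Kb FL
  rw [gammaR_apply]
  show compRBar1 N c (algebraMap (BRing c V) RQ b) = _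
  rw [compRBar1_algebraMap]
  rfl

/-- **(S2b), assembly**: the discriminant of `C_Q` over `B_Q` does not vanish at the point `t` of
the open unit disc, given unramifiedness `hU` of the factors of `R_L` over `μ = t` and the normal
base change `hgen`. -/
theorem evDiscAtB_discrCInt_ne_zero
    [instK : ∀ I : MaximalSpectrum RL, Algebra Kb (Factor c Kb FL I)]
    (htower : ∀ I : MaximalSpectrum RL,
      @IsScalarTower Kb (MuLine c Kb) (Factor c Kb FL I) Algebra.toSMul
        (factorAlgebra c Kb FL I).toSMul (instK I).toSMul)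
    (hU : ∀ (I : MaximalSpectrum RL),
      letI := factorField c Kb FL I
      letI := factorAlgebra c Kb FL I
      ∀ v : Place Kb (Factor c Kb FL I),
      0 < v.ord (algebraMap (MuLine c Kb) (Factor c Kb FL I) μL -
        algebraMap Kb (Factor c Kb FL I) t) →
      v.ord (algebraMap (MuLine c Kb) (Factor c Kb FL I) μL -
        algebraMap Kb (Factor c Kb FL I) t) = 1)
    (hgen : letI := muAlgebra c Kb FL
      ∀ (w : Place Kb (MuLine c Kb))
        (hw : w.adicValuation (μL - algebraMap Kb (MuLine c Kb) t) < 1) (x : RL),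
        IsIntegral (fracRing Kb μL t) x → ∃ s : fracRing Kb μL t,
          evFrac (isFF_mu c Kb) t w hw s ≠ 0 ∧
            s • x ∈ Submodule.span (fracRing Kb μL t) (Set.range (gammaR N c A))) :
    evDiscAtB φ A c t ht (discrCInt c V F0) ≠ 0 := by
  classical
  letI := fun I => factorField c Kb FL I
  letI := fun I => factorAlgebra c Kb FL I
  letI := muAlgebra c Kb FL
  letI := fintypeMaximalSpectrum c Kb FL
  haveI : ∀ I : MaximalSpectrum RL, @IsScalarTower Kb (MuLine c Kb) (Factor c Kb FL I)
      Algebra.toSMul (factorAlgebra c Kb FL I).toSMul (instK I).toSMul := htower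
  haveI : ∀ I : MaximalSpectrum RL, Module.Finite (MuLine c Kb) (Factor c Kb FL I) :=
    fun I => factor_finite c Kb FL I
  haveI := finite_CInt c V F0
  letI := algEv c A t ht
  have hmu := isFF_mu c Kb
  have htop : Kb⟮μL⟯ = ⊤ := AbhyankarGen.adjoin_mu_eq_top c Kb
  obtain ⟨w, hw⟩ := exists_place_over hmu (isSeparable_of_adjoin_eq_top htop) t
  have hβ : ∀ b : BRing c V,
      algebraMap (BRing c V) Kb b = evFrac hmu t w hw (betaFrac c A t ht b) := by
    intro b
    rw [algebraMap_algEv, evDiscAtB_eq_comp]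
    exact (evFrac_inclusion c A t ht w hw _).symm
  have hcount : Module.finrank (MuLine c Kb) RL ≤ Nat.card (CInt c F0 V →ₐ[BRing c V] Kb) :=
    finrank_le_card_algHom (ringEquivPi c Kb FL) (fun m => rfl) hmu htop t w hw hU
      (betaFrac c A t ht) hβ (gammaR N c A) (gammaR_algebraMap N c A t ht) (hgen w hw)
  have hcard : Fintype.card (Fin (Module.finrank (RatFunc ℚ) F0)) ≤
      Nat.card (CInt c F0 V →ₐ[BRing c V] Kb) := by
    rw [Fintype.card_fin, ← finrank_RL_eq N c]
    exact hcount
  have key := SurfaceBAbs.discr_ne_zero_of_le_card_algHom Kb (basisCInt c V F0) hcard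
  intro h0
  apply key
  show ((evDiscAtB φ A c t ht (discrCInt c V F0) : A) : Kb) = 0
  rw [h0]
  rfl

/-- The same in the shape of `PointsDisc2.finrank_le_card_algHom`: for `x : R_L` integral over
`D`, `s • x` lies in the `D`-span of the image of `C_ℚ` (`γ = compRBar ∘ coe`). -/
theorem hgen_fracRing_smul
    (evD : fracRing Kb (MuLine.mu c Kb) t →+* Kb)
    (hevq : ∀ q : Kb[X], q.eval t ≠ 0 → evD (denD c t q) ≠ 0)
    (x : RAlg c Kb ↥(F1Bar N))
    (hx : IsIntegral (fracRing Kb (MuLine.mu c Kb) t) x) :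
    ∃ s : fracRing Kb (MuLine.mu c Kb) t, evD s ≠ 0 ∧
      s • x ∈ Submodule.span (fracRing Kb (MuLine.mu c Kb) t)
        (Set.range ((compRBar1 N c).comp
          (CInt c ↥(F1 N) (A.comap (algebraMap ℚ Kb))).val.toRingHom)) := by
  obtain ⟨q, hq, l, hl⟩ := exists_list_of_isIntegral_fracRingBar' N c
    (A.comap (algebraMap ℚ Kb)) t hx
  refine ⟨denD c t q, hevq q hq, ?_⟩
  have hsm : denD c t q • x =
      algebraMap (MuLine c Kb) (RAlg c Kb ↥(F1Bar N))
        (Polynomial.aeval (MuLine.mu c Kb) q) * x := by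
    rw [Algebra.smul_def]
    rfl
  rw [hsm, hl]
  refine list_sum_mem fun y hy => ?_
  obtain ⟨p, -, rfl⟩ := List.mem_map.mp hy
  have : compRBar1 N c (p.1 : RAlg c ℚ ↥(F1 N)) * constR c Kb p.2 =
      constD c t p.2 • ((compRBar1 N c).comp
        (CInt c ↥(F1 N) (A.comap (algebraMap ℚ Kb))).val.toRingHom) p.1 := by
    rw [Algebra.smul_def, mul_comm]
    rfl
  rw [this]
  exact Submodule.smul_mem _ _ (Submodule.subset_span ⟨p.1, rfl⟩)

/-- **(S2b)** for a general cover, with the unramifiedness (U) of the factors of `R_L` over the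
points of the open unit disc as the only hypothesis. -/
theorem evDiscAtB_discrCInt_ne_zero_of_unram
    (hU : ∀ (t : Kb), A.valuation t < 1 →
      ∀ (I : MaximalSpectrum (RAlg c Kb ↥(F1Bar N))),
      letI := factorField c Kb ↥(F1Bar N) I
      letI := factorAlgebra c Kb ↥(F1Bar N) I
      ∀ v : Place Kb (Factor c Kb ↥(F1Bar N) I),
      0 < v.ord (algebraMap (MuLine c Kb) (Factor c Kb ↥(F1Bar N) I)
          (MuLine.mu c Kb) - algebraMap Kb (Factor c Kb ↥(F1Bar N) I) t) →
      v.ord (algebraMap (MuLine c Kb) (Factor c Kb ↥(F1Bar N) I)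
          (MuLine.mu c Kb) - algebraMap Kb (Factor c Kb ↥(F1Bar N) I) t) = 1)
    (t : Kb) (ht : A.valuation t < 1) :
    evDiscAtB (algebraMap ℚ Kb) A c t ht
      (discrCInt c (A.comap (algebraMap ℚ Kb)) ↥(F1 N)) ≠ 0 := by
  refine evDiscAtB_discrCInt_ne_zero N c A t ht
    (fun I => UnramFactors.isScalarTower_K_mu c Kb ↥(F1Bar N) I) (hU t ht) ?_
  intro w hw x hx
  refine hgen_fracRing_smul N c A t _ ?_ x hx
  intro q hq
  rw [show denD c t q =
    (⟨aeval (MuLine.mu c Kb) q, aeval_mem_fracRing q⟩ : fracRing Kb (MuLine.mu c Kb) t) from rfl,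
    evFrac_aeval]
  exact hq

end Main

end Fermat.Agent.S48.B.K3.SurfaceB1

end
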