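import Mathlib
import Fermat.Agent.S48.B.K3.SurfaceB1
import Fermat.Agent.S18.C.UnramDisc
import Fermat.Agent.S18.C.AbhyankarAt
import Fermat.Agent.S18.C.UnramFactors
import Fermat.Agent.S18.A.Instances

/-!
# PROJECT D (S48), part B, seam [B-K3] (helper13).  File 6: unramifiedness (U) over the disc for
# `X₁(N)` and the hypothesis-free (S2b)

Twin of `S18/C/UnramDiscX0.lean`, `S18/C/UnramDiscFinal.lean`, of the section `Modular` of
`S18/C/UnramFactors.lean` and of the Hesse / Legendre statements of `S18/C/SurfaceBFinal.lean`.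
The ramification data of `S18/C/S24Ram` are the fields of the input `[CharZero1 N]`.
-/

set_option autoImplicit false
set_option linter.style.haveILetI false
set_option linter.unusedSectionVars false
set_option synthInstance.maxHeartbeats 400000

noncomputable section

namespace Fermat.Agent.S48.B.K3.Unram1

open AlgebraicCurve IntermediateField Polynomial TensorProduct ModularCurve
  Fermat.Agent.S24.FF Fermat.Agent.S24.Ord
  Fermat.Agent.S18.C.UnramDisc Fermat.Agent.S18.A.Instances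
open Fermat.Agent.S18.C
open Fermat.Agent.S18.C.Defs Fermat.Agent.S18.C.RAlgStructure Fermat.Agent.S18.C.RAlgFactors
open Fermat.Agent.S18.C.SurfaceDefs Fermat.Agent.S18.C.BRingLocal
open Fermat.Agent.S18.C.EvalBridge Fermat.Agent.S18.C.SurfaceFree
open Fermat.Agent.S18.C.UnramFactors (hrel isFF_muF isIntegral_F isScalarTower_K_mu)
open Fermat.Agent.S48.B.Defs.Model Fermat.Agent.S48.B.B1.Seams
open Fermat.Agent.S48.B.K3.Inputs Fermat.Agent.S48.B.K3.Forms1

local notation "Kb" => AlgebraicClosure ℚ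

variable (N : ℕ) [NeZero N] [CharZero1 N]

theorem jgen1_sub_ne_zero (a : Kb) : jgen1 N - algebraMap Kb ↥(F1Bar N) a ≠ 0 :=
  sub_ne_zero.mpr ((CharZero1.isFF (N := N)).ne_algebraMap a)

/-! ### twin of `S18/C/UnramDiscX0.lean` -/

/-- `0 < ord` gives membership in the nonunits (the hypothesis shape of `CharZero1`). -/
theorem mem_nonunits_of_ord_pos (a : Kb) (v : Place Kb ↥(F1Bar N))
    (hv : 0 < v.ord (jgen1 N - algebraMap Kb _ a)) :
    jgen1 N - algebraMap Kb _ a ∈ v.toValuationSubring.nonunits := by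
  rw [Fermat.Agent.S18.A.FibreSep.mem_nonunits_iff]
  exact (ord_pos_iff v (jgen1_sub_ne_zero N a)).mp hv

theorem ord_dvd_three (v : Place Kb ↥(F1Bar N))
    (hv : 0 < v.ord (jgen1 N - algebraMap Kb _ 0)) :
    v.ord (jgen1 N - algebraMap Kb _ 0) ∣ 3 :=
  CharZero1.ord_dvd_three v (mem_nonunits_of_ord_pos N 0 v hv)

theorem ord_dvd_two (v : Place Kb ↥(F1Bar N))
    (hv : 0 < v.ord (jgen1 N - algebraMap Kb _ 1728)) :
    v.ord (jgen1 N - algebraMap Kb _ 1728) ∣ 2 :=
  CharZero1.ord_dvd_two v (mem_nonunits_of_ord_pos N 1728 v hv)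

theorem ord_eq_one (a : Kb) (h0 : a ≠ 0) (h1728 : a ≠ 1728)
    (v : Place Kb ↥(F1Bar N))
    (hv : 0 < v.ord (jgen1 N - algebraMap Kb _ a)) :
    v.ord (jgen1 N - algebraMap Kb _ a) = 1 :=
  CharZero1.ord_eq_one a h1728 h0 v (mem_nonunits_of_ord_pos N a v hv)

section Phi

variable {Φ : Type*} [Field Φ] [Algebra Kb Φ] [Algebra ↥(F1Bar N) Φ]
  [IsScalarTower Kb ↥(F1Bar N) Φ]
  [Algebra.IsIntegral ↥(F1Bar N) Φ]

/-- **Every place of `Φ` over a point `c` of the disc is unramified over `Kb(μ)`.** -/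
theorem ord_sub_eq_one_of_abhyankar {μ : Φ} (hμ : Transcendental Kb μ) (P Q : Kb[X])
    (hrel : algebraMap ↥(F1Bar N) Φ (jgen1 N) * aeval μ Q = aeval μ P)
    (c : Kb) (hQc : Q.eval c ≠ 0)
    (m0 : P.eval c = 0 → 3 ∣ P.rootMultiplicity c)
    (m1728 : P.eval c = 1728 * Q.eval c → 2 ∣ (P - C 1728 * Q).rootMultiplicity c)
    (P' : Place Kb Φ) (hpos : 0 < P'.ord (μ - algebraMap Kb Φ c))
    (hAb : AbhyankarAt P' (imageF Kb ↥(F1Bar N)) Kb⟮μ⟯) :
    P'.ord (μ - algebraMap Kb Φ c) = 1 :=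
  ord_sub_eq_one_of_three_branch (CharZero1.isFF (N := N)).transcendental hμ P Q hrel c hQc
    (ord_dvd_three N) (ord_dvd_two N) (fun a h0 h1728 v hv => ord_eq_one N a h0 h1728 v hv)
    m0 m1728 P' hpos hAb

omit [Algebra.IsIntegral ↥(F1Bar N) Φ] in
/-- Abhyankar's conclusion at every place of a field `Φ = F_L · Kb(μ)` with `j · Q(μ) = P(μ)`. -/
theorem abhyankarAt {μ : Φ} (hμ : IsFF Kb μ) (P Q : Kb[X])
    (hrel : algebraMap ↥(F1Bar N) Φ (jgen1 N) * aeval μ Q = aeval μ P)
    (hQ : Q ≠ 0)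
    (hsup : imageF Kb ↥(F1Bar N) ⊔ Kb⟮μ⟯ = ⊤) (P' : Place Kb Φ) :
    AbhyankarAt P' (imageF Kb ↥(F1Bar N)) Kb⟮μ⟯ :=
  AbhyankarAt.abhyankarAt_imageF hμ (CharZero1.isFF (N := N)).transcendental P Q hrel hQ hsup P'

/-- **Every place of `Φ = F_L · Kb(μ)` over a point `c` of the disc is unramified over `Kb(μ)`**
(no Abhyankar hypothesis). -/
theorem ord_sub_eq_one {μ : Φ} (hμ : IsFF Kb μ) (P Q : Kb[X])
    (hrel : algebraMap ↥(F1Bar N) Φ (jgen1 N) * aeval μ Q = aeval μ P)
    (hsup : imageF Kb ↥(F1Bar N) ⊔ Kb⟮μ⟯ = ⊤)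
    (c : Kb) (hQc : Q.eval c ≠ 0)
    (m0 : P.eval c = 0 → 3 ∣ P.rootMultiplicity c)
    (m1728 : P.eval c = 1728 * Q.eval c → 2 ∣ (P - C 1728 * Q).rootMultiplicity c)
    (P' : Place Kb Φ) (hpos : 0 < P'.ord (μ - algebraMap Kb Φ c)) :
    P'.ord (μ - algebraMap Kb Φ c) = 1 := by
  have hQ : Q ≠ 0 := by
    rintro rfl
    simp at hQc
  exact ord_sub_eq_one_of_abhyankar N hμ.transcendental P Q hrel c hQc m0 m1728 P' hpos
    (abhyankarAt N hμ P Q hrel hQ hsup P')

end Phi

/-! ### twin of the section `Modular` of `S18/C/UnramFactors.lean` -/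

section Modular

variable (c : Cover) [c.Good Kb]
variable (I : MaximalSpectrum (RAlg c Kb ↥(F1Bar N)))

/-- **(U), general cover**: every place of a field factor `Φ_I` of `R_L = F_L ⊗ ℚ̄(μ)` over a point
`t` of the `μ`-line with `Q(t) ≠ 0` and the two multiplicity conditions is unramified over
`ℚ̄(μ)`. -/
theorem ord_sub_eq_one_of_mult (t : Kb) (hQc : (c.QK Kb).eval t ≠ 0)
    (m0 : (c.PK Kb).eval t = 0 → 3 ∣ (c.PK Kb).rootMultiplicity t)
    (m1728 : (c.PK Kb).eval t = 1728 * (c.QK Kb).eval t →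
      2 ∣ (c.PK Kb - C 1728 * c.QK Kb).rootMultiplicity t) :
    letI := factorField c Kb ↥(F1Bar N) I
    letI := factorAlgebra c Kb ↥(F1Bar N) I
    ∀ v : Place Kb (Factor c Kb ↥(F1Bar N) I),
      0 < v.ord (algebraMap (MuLine c Kb) (Factor c Kb ↥(F1Bar N) I)
          (MuLine.mu c Kb) - algebraMap Kb (Factor c Kb ↥(F1Bar N) I) t) →
      v.ord (algebraMap (MuLine c Kb) (Factor c Kb ↥(F1Bar N) I)
          (MuLine.mu c Kb) - algebraMap Kb (Factor c Kb ↥(F1Bar N) I) t) = 1 := by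
  letI := factorField c Kb ↥(F1Bar N) I
  letI := factorAlgebra c Kb ↥(F1Bar N) I
  haveI := isIntegral_F c Kb ↥(F1Bar N) I
  haveI := isScalarTower_K_mu c Kb ↥(F1Bar N) I
  intro v hpos
  have hμ := isFF_muF c Kb ↥(F1Bar N) I
  have hrel0 := hrel c Kb ↥(F1Bar N) I
  rw [Inputs.algebraMap_FL_X] at hrel0
  have hsup := AbhyankarGen.imageF_sup_eq_top_of_surjective c Kb ↥(F1Bar N)
    (proj c Kb ↥(F1Bar N) I) (proj_surjective c Kb _ I) (fun _ => rfl)
    (fun m => (factorAlgebra_algebraMap c Kb _ I m).symm)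
  exact ord_sub_eq_one N hμ (c.PK Kb) (c.QK Kb) hrel0 hsup t hQc m0 m1728 v hpos

/-- **(U) for the Hesse cover** (`ℓ = 2`): over every point `t` of the open unit disc of ANY
valuation subring `A` of `ℚ̄`, all places of all field factors of `R_L` are unramified over
`ℚ̄(μ)`. -/
theorem hesse_ord_sub_eq_one (A : ValuationSubring Kb)
    (I : MaximalSpectrum (RAlg CoverInst.hesse Kb ↥(F1Bar N)))
    (t : Kb) (ht : A.valuation t < 1) :
    letI := factorField CoverInst.hesse Kb ↥(F1Bar N) I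
    letI := factorAlgebra CoverInst.hesse Kb ↥(F1Bar N) I
    ∀ v : Place Kb (Factor CoverInst.hesse Kb ↥(F1Bar N) I),
      0 < v.ord (algebraMap (MuLine CoverInst.hesse Kb)
          (Factor CoverInst.hesse Kb ↥(F1Bar N) I)
          (MuLine.mu CoverInst.hesse Kb) -
            algebraMap Kb (Factor CoverInst.hesse Kb ↥(F1Bar N) I) t) →
      v.ord (algebraMap (MuLine CoverInst.hesse Kb)
          (Factor CoverInst.hesse Kb ↥(F1Bar N) I)
          (MuLine.mu CoverInst.hesse Kb) -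
            algebraMap Kb (Factor CoverInst.hesse Kb ↥(F1Bar N) I) t) = 1 :=
  ord_sub_eq_one_of_mult N CoverInst.hesse I t (UnramDenom.hesse_QK_eval_ne_zero A ht)
    (UnramMult.hesse_m0 t) (UnramMult.hesse_m1728 t)

/-- **(U) for the (recentred) Legendre cover** (`ℓ = 3`): over every point `t` of the open unit
disc of a valuation subring `A` of `ℚ̄` with `3 ∈ 𝔪_A`, all places of all field factors of `R_L`
are unramified over `ℚ̄(μ)`. -/
theorem legendre_ord_sub_eq_one (A : ValuationSubring Kb) (h3 : A.valuation 3 < 1)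
    (I : MaximalSpectrum (RAlg CoverInst.legendre Kb ↥(F1Bar N)))
    (t : Kb) (ht : A.valuation t < 1) :
    letI := factorField CoverInst.legendre Kb ↥(F1Bar N) I
    letI := factorAlgebra CoverInst.legendre Kb ↥(F1Bar N) I
    ∀ v : Place Kb (Factor CoverInst.legendre Kb ↥(F1Bar N) I),
      0 < v.ord (algebraMap (MuLine CoverInst.legendre Kb)
          (Factor CoverInst.legendre Kb ↥(F1Bar N) I)
          (MuLine.mu CoverInst.legendre Kb) -
            algebraMap Kb (Factor CoverInst.legendre Kb ↥(F1Bar N) I) t) →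
      v.ord (algebraMap (MuLine CoverInst.legendre Kb)
          (Factor CoverInst.legendre Kb ↥(F1Bar N) I)
          (MuLine.mu CoverInst.legendre Kb) -
            algebraMap Kb (Factor CoverInst.legendre Kb ↥(F1Bar N) I) t) = 1 :=
  ord_sub_eq_one_of_mult N CoverInst.legendre I t
    (UnramDenom.legendre_QK_eval_ne_zero A h3 ht)
    (UnramMult.legendre_m0 t) (UnramMult.legendre_m1728 t)

end Modular

/-! ### twin of `S18/C/SurfaceBFinal.lean`: (S2b) for the Hesse and Legendre covers -/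

section Final

variable (A : ValuationSubring Kb) [IsDiscreteValuationRing ↥(A.comap (algebraMap ℚ Kb))]

/-- **(S2b) for the Hesse cover** (used with `ℓ = 2`). -/
theorem hesse_evDiscAtB_discrCInt_ne_zero [CoverInst.hesse.Good ℚ] [CoverInst.hesse.Good Kb]
    (t : Kb) (ht : A.valuation t < 1) :
    evDiscAtB (algebraMap ℚ Kb) A CoverInst.hesse t ht
      (discrCInt CoverInst.hesse (A.comap (algebraMap ℚ Kb)) ↥(F1 N)) ≠ 0 :=
  SurfaceB1.evDiscAtB_discrCInt_ne_zero_of_unram N CoverInst.hesse A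
    (fun t ht I => hesse_ord_sub_eq_one N A I t ht) t ht

/-- **(S2b) for the (recentred) Legendre cover** (used with `ℓ = 3`). -/
theorem legendre_evDiscAtB_discrCInt_ne_zero [CoverInst.legendre.Good ℚ]
    [CoverInst.legendre.Good Kb] (h3 : A.valuation 3 < 1)
    (t : Kb) (ht : A.valuation t < 1) :
    evDiscAtB (algebraMap ℚ Kb) A CoverInst.legendre t ht
      (discrCInt CoverInst.legendre (A.comap (algebraMap ℚ Kb))
        ↥(F1 N)) ≠ 0 :=
  SurfaceB1.evDiscAtB_discrCInt_ne_zero_of_unram N CoverInst.legendre A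
    (fun t ht I => legendre_ord_sub_eq_one N A h3 I t ht) t ht

end Final

end Fermat.Agent.S48.B.K3.Unram1

end
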