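import Mathlib
import Fermat.Agent.S48.B.K3.Surface1
import Fermat.Agent.S48.B.K3.Unram1
import Fermat.Agent.S18.C.FinalPrep
import Fermat.Agent.S18.C.GenericK3Final
import Fermat.Agent.S18.C.SpecialFibre
import Fermat.Agent.S18.C.SpecialCombine
import Fermat.Agent.S18.C.NumbersTop
import Fermat.Agent.S18.C.GalRed
import Fermat.Agent.S18.A.DualChart
import Fermat.Agent.S37.Wild.SpecialPointsKModel
import Fermat.Agent.S37.Wild.GalDataInst

/-!
# PROJECT D (S48), part B, seam [B-K3] (helper13).  File 8: CONTRACT K3 FOR `X₁(N)`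

Twin of `S18/C/KModelX0` (three lemmas), `S18/C/GenericK3Final` (section `Modular`),
`S18/C/FinalHesse.k3_hesse_of_kside`, `S18/C/FinalLegendre.k3_legendre_of_kside` and
`S37/Wild/K3.lean`.

`K3₁ N A` (the lower bound for the different of the fibre of `j̄` over `0 = 1728` when `1728 = 0` in
the residue field, i.e. `ℓ ∈ {2, 3}`) from the three inputs `[CharZero1 N] [Gauss1 N ℓ]
[Residue1 N A]` and a Gauss datum
`G : Deuring.Core.GaussDatum A (residue A) ℚ̄(X₁(N)) k(X₁(N))` with `j` Gauss-integral and reducing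
to `j̄` (`[Wild.KModel.JIn G]`) and `red` onto.

* `k3_hesse`    : `ℓ = 2`  (Hesse cover);
* `k3_legendre` : `ℓ = 3`  (recentred Legendre cover);
* `k3`          : every prime `ℓ` (the statement is void for `ℓ ≥ 5`).
-/

set_option autoImplicit false
set_option synthInstance.maxHeartbeats 400000
set_option linter.unusedSectionVars false
set_option linter.style.haveILetI false

noncomputable section

namespace Fermat.Agent.S48.B.K3.Final1

open Polynomial TensorProduct AlgebraicCurve MulAction ModularCurve IntermediateField IsDedekindDomain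
open Fermat.Agent.S18.A Fermat.Agent.S24.FF
open Fermat.Agent.S18.C
open Fermat.Agent.S18.C.Defs Fermat.Agent.S18.C.SurfaceDefs Fermat.Agent.S18.C.FinEt
open Fermat.Agent.S18.C.CoverInst Fermat.Agent.S18.C.GenericCount Fermat.Agent.S18.C.BRingLocal
open Fermat.Agent.S18.C.GenericFibre Fermat.Agent.S18.C.GenericFibre2 Fermat.Agent.S18.C.GenericK3
open Fermat.Agent.S18.C.Hesse Fermat.Agent.S18.C.Legendre Fermat.Agent.S18.C.GalRed
open Fermat.Agent.S18.C.GenericK3Final (card_zeros_congr int_form)
open Fermat.Agent.S37.Deuring.Core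
open Fermat.Agent.S48.B.Defs.Model Fermat.Agent.S48.B.B1.Seams
open Fermat.Agent.S48.B.K3.Inputs Fermat.Agent.S48.B.K3.Forms1

local notation "Kb" => AlgebraicClosure ℚ

attribute [local instance 2000] Fermat.Agent.S48.B.K3.Inputs.algkFk1

variable (N : ℕ) [NeZero N]

/-! ### the statement -/

/-- **[B-K3]: contract K3 for `X₁(N)` at `A`**: the lower bound for the different of the fibre of
`j̄` over `0 = 1728` in residue characteristic `2`, `3` (twin of `S18.Wire.K3`; the proofs `hxL`,
`hsepL`, `hxk`, `hsep` are propositions, so any proofs of them may be used). -/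
def K3₁ (A : ValuationSubring Kb) : Prop :=
  ∀ [IsAlgClosed (IsLocalRing.ResidueField A)]
    (hxL : IsFF Kb (jgen1 N)) (hsepL : Algebra.IsSeparable Kb⟮jgen1 N⟯ ↥(F1Bar N))
    (hxk : IsFF (IsLocalRing.ResidueField A) (jk1 N (IsLocalRing.ResidueField A)))
    (hsep : Algebra.IsSeparable
      (IsLocalRing.ResidueField A)⟮jk1 N (IsLocalRing.ResidueField A)⟯
      ↥(F1C N (IsLocalRing.ResidueField A))),
    (1728 : IsLocalRing.ResidueField A) = 0 →
      ((Module.finrank Kb⟮jgen1 N⟯ ↥(F1Bar N) : ℤ) - ((FibreSep.zeros hxL hsepL 0).card : ℤ))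
        + ((Module.finrank Kb⟮jgen1 N⟯ ↥(F1Bar N) : ℤ)
          - ((FibreSep.zeros hxL hsepL 1728).card : ℤ))
      ≤ ∑ Q ∈ FibreSep.zeros hxk hsep 0, (Defs.diffExp hxk hsep Q : ℤ)

/-- `K3₁` holds trivially when the residue characteristic is not `2` or `3`. -/
theorem k3_of_ne (A : ValuationSubring Kb)
    (h1728 : (1728 : IsLocalRing.ResidueField A) ≠ 0) : K3₁ N A :=
  fun _ _ _ _ h => absurd h h1728

/-! ### twin of three lemmas of `S18/C/KModelX0.lean` -/

section KModel

variable [CharZero1 N] (A : ValuationSubring Kb) [Residue1 N A]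

/-- `[FL : ℚ̄(j)] ≤ [Fk : k(j̄)]` (Igusa's bound: the input `Residue1`) -/
theorem finrank_le :
    Module.finrank (RatFunc Kb) ↥(F1Bar N) ≤
      Module.finrank (RatFunc (IsLocalRing.ResidueField A))
        ↥(F1C N (IsLocalRing.ResidueField A)) := by
  haveI := (Residue1.isFF (N := N) (A := A)).finite
  rw [(finrank_ratFunc_bar1 N).2,
    (BaseChangeR.finrank_ratAlgebra (transcendental_jk1 N (IsLocalRing.ResidueField A))).2]
  exact Residue1.finrank_le

omit [CharZero1 N] [Residue1 N A] in
/-- `Fk / k(j̄)` is separable (from the hypothesis `hsep` of `K3₁`) -/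
theorem isSeparable_Fk
    (hsep : Algebra.IsSeparable
      (IsLocalRing.ResidueField A)⟮jk1 N (IsLocalRing.ResidueField A)⟯
      ↥(F1C N (IsLocalRing.ResidueField A))) :
    Algebra.IsSeparable (RatFunc (IsLocalRing.ResidueField A))
      ↥(F1C N (IsLocalRing.ResidueField A)) :=
  Fermat.Agent.S18.A.DualChart.isSeparable_rat
    (transcendental_jk1 N (IsLocalRing.ResidueField A)) (fun _ => rfl) hsep

end KModel

/-! ### twin of the section `Modular` of `S18/C/GenericK3Final.lean` -/

section Modular

variable [CharZero1 N] (A : ValuationSubring Kb) [IsAlgClosed (IsLocalRing.ResidueField A)]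
  (hxL : IsFF Kb (jgen1 N)) (hsepL : Algebra.IsSeparable Kb⟮jgen1 N⟯ ↥(F1Bar N))

theorem xF_eq_jgen1 : xF Kb ↥(F1Bar N) = jgen1 N := algebraMap_FL_X N

theorem isFF_xF : IsFF Kb (xF Kb ↥(F1Bar N)) := by
  rw [xF_eq_jgen1]; exact CharZero1.isFF

theorem isSeparable_xF :
    Algebra.IsSeparable Kb⟮xF Kb ↥(F1Bar N)⟯ ↥(F1Bar N) := by
  have := (isFF_xF N).finite
  infer_instance

section Hesse

open Fermat.Agent.S18.C.Hesse

variable [IsInvariantSubring (hesse.Gal Kb) (BRing hesse A)]
  [Fintype (hesse.Gal Kb)] [DecidableEq (hesse.Gal Kb)]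
  {ι : Type*} [Fintype ι] [DecidableEq ι]
  (b : Module.Basis ι (BRing hesse A) (CInt hesse ↥(F1Bar N) A))

/-- **K3 for `X₀(N)`, `ℓ = 2`**, as an equality with the number `D` of the special-fibre identity
`hD`; the left side is literally the left side of `hC` in `S18.Final.of_blocks`. -/
theorem hesse_k3_modular (h2 : A.valuation 2 < 1) {ω : Kb} (hω : ω ^ 2 + ω + 1 = 0)
    (h3 : (3 : Kb) ≠ 0) (hb : IsUnit (Algebra.discr (BRing hesse A) b))
    (hn : Fintype.card ι = Module.finrank Kb⟮jgen1 N⟯ ↥(F1Bar N)) (D : ℕ)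
    (hD : 12 * D + ∑ g ∈ Finset.univ.erase (1 : hesse.Gal Kb),
        iH (hesseIdx hω h3 g) *
          phik (C := CInt hesse ↥(F1Bar N) A) A (evClosedB hesse A) g =
      14 * Fintype.card ι) :
    ((Module.finrank Kb⟮jgen1 N⟯ ↥(F1Bar N) : ℤ)
        - ((FibreSep.zeros hxL hsepL 0).card : ℤ))
      + ((Module.finrank Kb⟮jgen1 N⟯ ↥(F1Bar N) : ℤ)
        - ((FibreSep.zeros hxL hsepL 1728).card : ℤ))
      = (D : ℤ) := by
  have h := hesse_k3_rank A hω h3 h2 ↥(F1Bar N) b hb (isFF_xF N)
    (isSeparable_xF N) D hD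
  rw [card_zeros_congr (xF_eq_jgen1 N) (isFF_xF N) (isSeparable_xF N) hxL
      hsepL 0,
    card_zeros_congr (xF_eq_jgen1 N) (isFF_xF N) (isSeparable_xF N) hxL
      hsepL 1728, hn] at h
  exact int_form h

end Hesse

section Legendre

open Fermat.Agent.S18.C.Legendre

variable [IsInvariantSubring (legendre.Gal Kb) (BRing legendre A)]
  [Fintype (legendre.Gal Kb)] [DecidableEq (legendre.Gal Kb)]
  {ι : Type*} [Fintype ι] [DecidableEq ι]
  (b : Module.Basis ι (BRing legendre A) (CInt legendre ↥(F1Bar N) A))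

/-- **K3 for `X₀(N)`, `ℓ = 3`**, as an equality with the number `D` of the special-fibre identity
`hD`; the left side is literally the left side of `hC` in `S18.Final.of_blocks`. -/
theorem legendre_k3_modular (hv3 : A.valuation 3 < 1) (h2 : (2 : Kb) ≠ 0)
    (hb : IsUnit (Algebra.discr (BRing legendre A) b))
    (hn : Fintype.card ι = Module.finrank Kb⟮jgen1 N⟯ ↥(F1Bar N)) (D : ℕ)
    (hD : 6 * D + ∑ g ∈ Finset.univ.erase (1 : legendre.Gal Kb),
        iL (legendreIdx h2 g) *
          phik (C := CInt legendre ↥(F1Bar N) A) A (evClosedB legendre A) g =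
      7 * Fintype.card ι) :
    ((Module.finrank Kb⟮jgen1 N⟯ ↥(F1Bar N) : ℤ)
        - ((FibreSep.zeros hxL hsepL 0).card : ℤ))
      + ((Module.finrank Kb⟮jgen1 N⟯ ↥(F1Bar N) : ℤ)
        - ((FibreSep.zeros hxL hsepL 1728).card : ℤ))
      = (D : ℤ) := by
  have h := legendre_k3_rank A hv3 h2 ↥(F1Bar N) b hb (isFF_xF N)
    (isSeparable_xF N) D hD
  rw [card_zeros_congr (xF_eq_jgen1 N) (isFF_xF N) (isSeparable_xF N) hxL
      hsepL 0,
    card_zeros_congr (xF_eq_jgen1 N) (isFF_xF N) (isSeparable_xF N) hxL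
      hsepL 1728, hn] at h
  exact int_form h

end Legendre

end Modular

/-! ### twin of `S18/C/FinalHesse.k3_hesse_of_kside` and `S18/C/FinalLegendre.k3_legendre_of_kside` -/

section OfKside

variable [CharZero1 N] (A : ValuationSubring Kb)
  (hxL : IsFF Kb (jgen1 N)) (hsepL : Algebra.IsSeparable Kb⟮jgen1 N⟯ ↥(F1Bar N))

section Hesse

variable [IsAlgClosed (IsLocalRing.ResidueField A)] [hesse.Good (IsLocalRing.ResidueField A)]
  [IsInvariantSubring (hesse.Gal Kb) (BRing hesse A)]
  [IsInvariantSubring (hesse.Gal (IsLocalRing.ResidueField A))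
    (BRing hesse (⊤ : ValuationSubring (IsLocalRing.ResidueField A)))]
  [IsDiscreteValuationRing ↥(SurfaceCA.VQ A)] [hesse.Good (ZMod 2)]
  [Gauss1 N 2]


set_option maxHeartbeats 3200000 in
/-- **Contract K3 for `ℓ = 2` from the K-side package** (`hK` = the conclusion of
`SpecialPointsKModel.kside` for `φ = hesseRed`, first and third conjunct). -/
theorem k3_hesse_of_kside (hA : A.LiesOverPrime 2)
    (hb : Surface1.PointwiseNonvanishing N hesse A)
    {ωS : A} (hωS : ωS ^ 2 + ωS + 1 = 0) (h3 : (3 : Kb) ≠ 0)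
    (h3' : (3 : IsLocalRing.ResidueField A) ≠ 0)
    (hK : FinEt (BRing hesse (⊤ : ValuationSubring (IsLocalRing.ResidueField A)))
        (CInt hesse ↥(F1C N (IsLocalRing.ResidueField A))
          (⊤ : ValuationSubring (IsLocalRing.ResidueField A))) ∧
      ∀ g : hesse.Gal Kb,
        phik (C := CInt hesse ↥(F1Bar N) A) A (evClosedB hesse A) g =
          Nat.card {x : MaximalSpectrum
              (CInt hesse ↥(F1C N (IsLocalRing.ResidueField A))
                (⊤ : ValuationSubring (IsLocalRing.ResidueField A))) //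
            ∀ y ∈ x.asIdeal,
              (hesseRed A.subtype A.subtype_injective (IsLocalRing.residue A) hωS h3 h3') g • y ∈
                x.asIdeal})
    (hxk : IsFF (IsLocalRing.ResidueField A) (jk1 N (IsLocalRing.ResidueField A)))
    (hsep : Algebra.IsSeparable
      (IsLocalRing.ResidueField A)⟮jk1 N (IsLocalRing.ResidueField A)⟯
      ↥(F1C N (IsLocalRing.ResidueField A))) :
    ((Module.finrank Kb⟮jgen1 N⟯ ↥(F1Bar N) : ℤ)
        - ((FibreSep.zeros hxL hsepL 0).card : ℤ))
      + ((Module.finrank Kb⟮jgen1 N⟯ ↥(F1Bar N) : ℤ)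
        - ((FibreSep.zeros hxL hsepL 1728).card : ℤ))
    ≤ ∑ Q ∈ FibreSep.zeros hxk hsep 0,
        (Defs.diffExp hxk hsep Q : ℤ) := by
  classical
  obtain ⟨hFinEt, hphik⟩ := hK
  obtain ⟨n', b', hd'⟩ := hFinEt
  -- the constants
  have h2v : A.valuation (2 : Kb) < 1 := by
    simpa using FinalPrep.valuation_natCast_lt_one hA
  have hω : ((ωS : A) : Kb) ^ 2 + ((ωS : A) : Kb) + 1 = 0 := by
    have := congrArg (A.subtype) hωS
    simpa using this
  have h2k : (2 : IsLocalRing.ResidueField A) = 0 := by
    simpa using Fermat.Agent.S18.ResidueBasics.residue_natCast_eq_zero A hA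
  have hωk : (IsLocalRing.residue A ωS) ^ 2 + IsLocalRing.residue A ωS + 1 = 0 := by
    rw [← map_pow, ← map_add, ← map_one (IsLocalRing.residue A), ← map_add, hωS, map_zero]
  -- the groups
  haveI := isGalois_hesse hωk h3'
  haveI : Finite (hesse.Gal (IsLocalRing.ResidueField A)) :=
    Nat.finite_of_card_ne_zero (by rw [card_gal_hesse hωk h3']; norm_num)
  letI : Fintype (hesse.Gal (IsLocalRing.ResidueField A)) := Fintype.ofFinite _
  haveI : Finite (hesse.Gal Kb) :=
    Nat.finite_of_card_ne_zero (by rw [card_gal_hesse hω h3]; norm_num)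
  letI : Fintype (hesse.Gal Kb) := Fintype.ofFinite _
  -- the surface
  have hd := Surface1.isUnit_discrCInt N hesse A hA hb
  have hbu := Surface1.isUnit_discr_basisCABar N hesse A hA hb
  -- the special fibre count
  have hcount := SpecialFibre.special_fibre_count_zeros hesse (IsLocalRing.ResidueField A) _
    (hesse_PK_coeff_zero (IsLocalRing.ResidueField A))
    (NumbersTop.hesse_QK_coeff_zero_ne (IsLocalRing.ResidueField A)) b' hxk hsep
    (algebraMap_Fk N (IsLocalRing.ResidueField A)) hd'
    (BRingTop.pTop hesse (IsLocalRing.ResidueField A)) (NumbersHesse.i0 hωk h3')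
    (fun g hg => NumbersTop.hesse_intValuation_smul_sub (IsLocalRing.ResidueField A) h2k hωk h3'
      _ g hg)
  rw [NumbersHesse.sum_i0 hωk h3'] at hcount
  -- `φk 1 = #maxSpec`
  have hone : phik (C := CInt hesse ↥(F1Bar N) A) A (evClosedB hesse A)
      (1 : hesse.Gal Kb) = Nat.card (MaximalSpectrum
        (CInt hesse ↥(F1C N (IsLocalRing.ResidueField A))
          (⊤ : ValuationSubring (IsLocalRing.ResidueField A)))) := by
    rw [hphik 1, map_one]
    refine Nat.card_congr (Equiv.subtypeUnivEquiv fun x y hy => ?_)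
    rw [one_smul]
    exact hy
  -- the combination
  have hD := SpecialCombine.hD_of_special_count
    (hesseRed A.subtype A.subtype_injective (IsLocalRing.residue A) hωS h3 h3')
    (Nat.card (MaximalSpectrum
      (CInt hesse ↥(F1C N (IsLocalRing.ResidueField A))
        (⊤ : ValuationSubring (IsLocalRing.ResidueField A))))) 14
    (∑ Q ∈ FibreSep.zeros hxk hsep 0,
      Defs.diffExp hxk hsep Q)
    (fun g => iH (hesseIdx hω h3 g)) (NumbersHesse.i0 hωk h3')
    (fun γ => Nat.card {x : MaximalSpectrum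
        (CInt hesse ↥(F1C N (IsLocalRing.ResidueField A))
          (⊤ : ValuationSubring (IsLocalRing.ResidueField A))) //
      ∀ y ∈ x.asIdeal, γ • y ∈ x.asIdeal})
    (fun g => phik (C := CInt hesse ↥(F1Bar N) A) A (evClosedB hesse A) g)
    hcount hphik hone
    (fun g => congrArg iH (hesseIdx_hesseRed A.subtype A.subtype_injective
      (IsLocalRing.residue A) hωS h3 h3' hω hωk g))
  rw [card_gal_hesse hω h3,
    GenericK3.phik_one_evClosedB hesse A (Surface1.basisCABar N hesse A hd) hbu] at hD
  have hn : Fintype.card (Fin (Surface1.nQ N)) =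
      Module.finrank Kb⟮jgen1 N⟯ ↥(F1Bar N) := by
    rw [Fintype.card_fin, Surface1.finrank_full_eq]
  have hfin := hesse_k3_modular N A hxL hsepL (Surface1.basisCABar N hesse A hd) h2v hω h3
    hbu hn _ hD
  rw [hfin, Nat.cast_sum]

end Hesse

section Legendre

variable [IsAlgClosed (IsLocalRing.ResidueField A)] [legendre.Good (IsLocalRing.ResidueField A)]
  [IsInvariantSubring (legendre.Gal Kb) (BRing legendre A)]
  [IsInvariantSubring (legendre.Gal (IsLocalRing.ResidueField A))
    (BRing legendre (⊤ : ValuationSubring (IsLocalRing.ResidueField A)))]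
  [IsDiscreteValuationRing ↥(SurfaceCA.VQ A)] [legendre.Good (ZMod 3)]
  [Gauss1 N 3]


set_option maxHeartbeats 3200000 in
/-- **Contract K3 for `ℓ = 3` from the K-side package** (`hK` = the conclusion of
`SpecialPointsKModel.kside` for `φ = legendreRed`, first and third conjunct). -/
theorem k3_legendre_of_kside (hA : A.LiesOverPrime 3)
    (hb : Surface1.PointwiseNonvanishing N legendre A)
    (h2 : (2 : Kb) ≠ 0) (h2' : (2 : IsLocalRing.ResidueField A) ≠ 0)
    (hK : FinEt (BRing legendre (⊤ : ValuationSubring (IsLocalRing.ResidueField A)))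
        (CInt legendre ↥(F1C N (IsLocalRing.ResidueField A))
          (⊤ : ValuationSubring (IsLocalRing.ResidueField A))) ∧
      ∀ g : legendre.Gal Kb,
        phik (C := CInt legendre ↥(F1Bar N) A) A (evClosedB legendre A) g =
          Nat.card {x : MaximalSpectrum
              (CInt legendre ↥(F1C N (IsLocalRing.ResidueField A))
                (⊤ : ValuationSubring (IsLocalRing.ResidueField A))) //
            ∀ y ∈ x.asIdeal,
              (legendreRed A.subtype A.subtype_injective (IsLocalRing.residue A) h2 h2') g • y ∈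
                x.asIdeal})
    (hxk : IsFF (IsLocalRing.ResidueField A) (jk1 N (IsLocalRing.ResidueField A)))
    (hsep : Algebra.IsSeparable
      (IsLocalRing.ResidueField A)⟮jk1 N (IsLocalRing.ResidueField A)⟯
      ↥(F1C N (IsLocalRing.ResidueField A))) :
    ((Module.finrank Kb⟮jgen1 N⟯ ↥(F1Bar N) : ℤ)
        - ((FibreSep.zeros hxL hsepL 0).card : ℤ))
      + ((Module.finrank Kb⟮jgen1 N⟯ ↥(F1Bar N) : ℤ)
        - ((FibreSep.zeros hxL hsepL 1728).card : ℤ))
    ≤ ∑ Q ∈ FibreSep.zeros hxk hsep 0,
        (Defs.diffExp hxk hsep Q : ℤ) := by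
  classical
  obtain ⟨hFinEt, hphik⟩ := hK
  obtain ⟨n', b', hd'⟩ := hFinEt
  -- the constants
  have h3v : A.valuation (3 : Kb) < 1 := by
    simpa using FinalPrep.valuation_natCast_lt_one hA
  have h3k : (3 : IsLocalRing.ResidueField A) = 0 := by
    simpa using Fermat.Agent.S18.ResidueBasics.residue_natCast_eq_zero A hA
  -- the groups
  haveI := isGalois_legendre h2'
  haveI : Finite (legendre.Gal (IsLocalRing.ResidueField A)) :=
    Nat.finite_of_card_ne_zero (by rw [card_gal_legendre h2']; norm_num)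
  letI : Fintype (legendre.Gal (IsLocalRing.ResidueField A)) := Fintype.ofFinite _
  haveI : Finite (legendre.Gal Kb) :=
    Nat.finite_of_card_ne_zero (by rw [card_gal_legendre h2]; norm_num)
  letI : Fintype (legendre.Gal Kb) := Fintype.ofFinite _
  -- the surface
  have hd := Surface1.isUnit_discrCInt N legendre A hA hb
  have hbu := Surface1.isUnit_discr_basisCABar N legendre A hA hb
  -- the special fibre count
  have hcount := SpecialFibre.special_fibre_count_zeros legendre (IsLocalRing.ResidueField A) _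
    (NumbersTop.legendre_PK_coeff_zero_eq (IsLocalRing.ResidueField A) h3k)
    (NumbersTop.legendre_QK_coeff_zero_ne (IsLocalRing.ResidueField A) h3k) b' hxk hsep
    (algebraMap_Fk N (IsLocalRing.ResidueField A)) hd'
    (BRingTop.pTop legendre (IsLocalRing.ResidueField A)) (NumbersLegendre.i0 h2')
    (fun g hg => NumbersTop.legendre_intValuation_smul_sub (IsLocalRing.ResidueField A) h3k h2'
      _ g hg)
  rw [NumbersLegendre.sum_i0 h2'] at hcount
  -- `φk 1 = #maxSpec`
  have hone : phik (C := CInt legendre ↥(F1Bar N) A) A (evClosedB legendre A)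
      (1 : legendre.Gal Kb) = Nat.card (MaximalSpectrum
        (CInt legendre ↥(F1C N (IsLocalRing.ResidueField A))
          (⊤ : ValuationSubring (IsLocalRing.ResidueField A)))) := by
    rw [hphik 1, map_one]
    refine Nat.card_congr (Equiv.subtypeUnivEquiv fun x y hy => ?_)
    rw [one_smul]
    exact hy
  -- the combination
  have hD := SpecialCombine.hD_of_special_count
    (legendreRed A.subtype A.subtype_injective (IsLocalRing.residue A) h2 h2')
    (Nat.card (MaximalSpectrum
      (CInt legendre ↥(F1C N (IsLocalRing.ResidueField A))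
        (⊤ : ValuationSubring (IsLocalRing.ResidueField A))))) 7
    (∑ Q ∈ FibreSep.zeros hxk hsep 0,
      Defs.diffExp hxk hsep Q)
    (fun g => iL (legendreIdx h2 g)) (NumbersLegendre.i0 h2')
    (fun γ => Nat.card {x : MaximalSpectrum
        (CInt legendre ↥(F1C N (IsLocalRing.ResidueField A))
          (⊤ : ValuationSubring (IsLocalRing.ResidueField A))) //
      ∀ y ∈ x.asIdeal, γ • y ∈ x.asIdeal})
    (fun g => phik (C := CInt legendre ↥(F1Bar N) A) A (evClosedB legendre A) g)
    hcount hphik hone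
    (fun g => congrArg iL (legendreIdx_legendreRed A.subtype A.subtype_injective
      (IsLocalRing.residue A) h2 h2' g))
  rw [card_gal_legendre h2,
    GenericK3.phik_one_evClosedB legendre A (Surface1.basisCABar N legendre A hd) hbu] at hD
  have hn : Fintype.card (Fin (Surface1.nQ N)) =
      Module.finrank Kb⟮jgen1 N⟯ ↥(F1Bar N) := by
    rw [Fintype.card_fin, Surface1.finrank_full_eq]
  have hfin := legendre_k3_modular N A hxL hsepL (Surface1.basisCABar N legendre A hd) h3v
    h2 hbu hn _ hD
  rw [hfin, Nat.cast_sum]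

end Legendre

end OfKside

/-! ### twin of `S37/Wild/K3.lean`: contract K3 from a Gauss datum -/

section FromDatum

variable [CharZero1 N] (A : ValuationSubring (AlgebraicClosure ℚ)) [Residue1 N A]
  (G : GaussDatum A (IsLocalRing.residue A) ↥(F1Bar N)
    ↥(F1C N (IsLocalRing.ResidueField A)))
  [hJ : Fermat.Agent.S37.Wild.KModel.JIn G]


/-- **Contract K3 for `ℓ = 2`** from a Gauss datum. -/
theorem k3_hesse [Gauss1 N 2] (hsurj : Function.Surjective G.red)
    (hA : A.LiesOverPrime 2) : K3₁ N A := by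
  intro _ hxL hsepL hxk hsep _
  haveI := Surface.isDiscreteValuationRing_VQ A hA
  have h3 : (3 : Kb) ≠ 0 := three_ne_zero
  have h2k : (2 : IsLocalRing.ResidueField A) = 0 := by
    simpa using Fermat.Agent.S18.ResidueBasics.residue_natCast_eq_zero A hA
  have h3' : (3 : IsLocalRing.ResidueField A) ≠ 0 :=
    NumbersTop.three_ne_zero_of_two (IsLocalRing.ResidueField A) h2k
  haveI : hesse.Good (IsLocalRing.ResidueField A) :=
    hesse_good_of_two_eq_zero (IsLocalRing.ResidueField A) h2k
  haveI : hesse.Good (ZMod 2) := hesse_good_of_two_eq_zero (ZMod 2) (by decide)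
  have h2v : A.valuation (2 : Kb) < 1 := by
    simpa using FinalPrep.valuation_natCast_lt_one hA
  have hb : Surface1.PointwiseNonvanishing N hesse A := fun t ht =>
    Unram1.hesse_evDiscAtB_discrCInt_ne_zero N A t ht
  obtain ⟨ω, hω⟩ := NumbersHesse.exists_omega Kb
  have hωS : (⟨ω, NumbersHesse.omega_mem A hω⟩ : A) ^ 2 + ⟨ω, NumbersHesse.omega_mem A hω⟩ + 1 = 0 :=
    Subtype.ext (by push_cast; exact hω)
  have hωk : (IsLocalRing.residue A ⟨ω, NumbersHesse.omega_mem A hω⟩) ^ 2 +
      IsLocalRing.residue A ⟨ω, NumbersHesse.omega_mem A hω⟩ + 1 = 0 := by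
    rw [← map_pow, ← map_add, ← map_one (IsLocalRing.residue A), ← map_add, hωS, map_zero]
  haveI := isInvariantSubring_hesse hω A h2v
  haveI := NumbersTop.hesse_isInvariantSubring_top (IsLocalRing.ResidueField A) h2k hωk
  haveI := isSeparable_Fk N A hsep
  have hS := Surface1.finEt_of_pointwise N hesse A hA hb
  have hk := Fermat.Agent.S37.Wild.SpecialPointsKModel.kside G hesse hsurj
    (finrank_le N A) hS
    (hesseRed A.subtype A.subtype_injective (IsLocalRing.residue A) hωS h3 h3').toMonoidHom
    (Fermat.Agent.S37.Wild.GalDataInst.galData_hesseRed A (IsLocalRing.residue A) hωS h3 h3')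
  exact k3_hesse_of_kside N A hxL hsepL hA hb hωS h3 h3' ⟨hk.1, hk.2.2⟩ hxk hsep

/-- **Contract K3 for `ℓ = 3`** from a Gauss datum. -/
theorem k3_legendre [Gauss1 N 3] (hsurj : Function.Surjective G.red)
    (hA : A.LiesOverPrime 3) : K3₁ N A := by
  intro _ hxL hsepL hxk hsep _
  haveI := Surface.isDiscreteValuationRing_VQ A hA
  have h2 : (2 : Kb) ≠ 0 := two_ne_zero
  have h3k : (3 : IsLocalRing.ResidueField A) = 0 := by
    simpa using Fermat.Agent.S18.ResidueBasics.residue_natCast_eq_zero A hA
  have h2' : (2 : IsLocalRing.ResidueField A) ≠ 0 :=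
    NumbersTop.two_ne_zero_of_three (IsLocalRing.ResidueField A) h3k
  haveI : legendre.Good (IsLocalRing.ResidueField A) :=
    legendre_good_of_three_eq_zero (IsLocalRing.ResidueField A) h3k
  haveI : legendre.Good (ZMod 3) := legendre_good_of_three_eq_zero (ZMod 3) (by decide)
  have h3v : A.valuation (3 : Kb) < 1 := by
    simpa using FinalPrep.valuation_natCast_lt_one hA
  have hb : Surface1.PointwiseNonvanishing N legendre A := fun t ht =>
    Unram1.legendre_evDiscAtB_discrCInt_ne_zero N A h3v t ht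
  haveI := isInvariantSubring_legendre A h3v
  haveI := NumbersTop.legendre_isInvariantSubring_top (IsLocalRing.ResidueField A) h3k
  haveI := isSeparable_Fk N A hsep
  have hS := Surface1.finEt_of_pointwise N legendre A hA hb
  have hk := Fermat.Agent.S37.Wild.SpecialPointsKModel.kside G legendre hsurj
    (finrank_le N A) hS
    (legendreRed A.subtype A.subtype_injective (IsLocalRing.residue A) h2 h2').toMonoidHom
    (Fermat.Agent.S37.Wild.GalDataInst.galData_legendreRed A (IsLocalRing.residue A) h2 h2')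
  exact k3_legendre_of_kside N A hxL hsepL hA hb h2 h2' ⟨hk.1, hk.2.2⟩ hxk hsep

/-- **Contract K3 for `X₁(N)` at every prime `ℓ`** from a Gauss datum and the three inputs. -/
theorem k3 (hsurj : Function.Surjective G.red) {ℓ : ℕ} [Fact ℓ.Prime] [Gauss1 N ℓ]
    (hA : A.LiesOverPrime ℓ) : K3₁ N A := by
  by_cases h1728 : (1728 : IsLocalRing.ResidueField A) = 0
  · rcases FinalPrep.ell_eq_two_or_three hA h1728 with rfl | rfl
    · exact k3_hesse N A G hsurj hA
    · exact k3_legendre N A G hsurj hA
  · exact k3_of_ne N A h1728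

end FromDatum

end Fermat.Agent.S48.B.K3.Final1

end
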