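import Mathlib
import Fermat.Agent.S48.B.K3.Final1
import Fermat.Agent.S48.B.Red.SeamsWild

/-!
# PROJECT D (S48), part B, seam [B-K3] (helper13).  File 9: the seam `WildK3₁` of block B3

`Final1.K3₁ N A` is `Red.SeamsWild.WildK3₁ N A` (helper11, blob 5b60307f) character for character:
`Inputs.jk1 N k` and `Red.Seams.jC N k` are both `⟨jqModC k, _⟩`.  So the seam [B-K3] holds at `A`
over `ℓ` as soon as the three inputs `[CharZero1 N] [Gauss1 N ℓ] [Residue1 N A]` and a Gauss datum
with `j` Gauss-integral, reducing to `j̄`, and `red` onto are given.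
-/

set_option autoImplicit false
set_option synthInstance.maxHeartbeats 400000

noncomputable section

namespace Fermat.Agent.S48.B.K3.Wild

open ModularCurve AlgebraicCurve IntermediateField
open Fermat.Agent.S37.Deuring.Core
open Fermat.Agent.S48.B.Defs.Model Fermat.Agent.S48.B.B1.Seams
open Fermat.Agent.S48.B.K3.Inputs Fermat.Agent.S48.B.K3.Final1
open Fermat.Agent.S48.B.Red.Seams Fermat.Agent.S48.B.Red.SeamsWild

local notation "Kb" => AlgebraicClosure ℚ

attribute [local instance 2000] Fermat.Agent.S48.B.K3.Inputs.algkFk1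

variable (N : ℕ) [NeZero N]

/-- the two names of `j̄` agree -/
theorem jk1_eq_jC (k : Type*) [Field k] : jk1 N k = jC N k := rfl

/-- the two spellings of contract K3 for `X₁(N)` agree -/
theorem k3₁_iff_wildK3₁ (A : ValuationSubring Kb) : K3₁ N A ↔ WildK3₁ N A := Iff.rfl

variable [CharZero1 N] (A : ValuationSubring Kb) [Residue1 N A]
  (G : GaussDatum A (IsLocalRing.residue A) ↥(F1Bar N) ↥(F1C N (IsLocalRing.ResidueField A)))
  [hJ : Fermat.Agent.S37.Wild.KModel.JIn G]

/-- **[B-K3] at `A`** in helper11's spelling. -/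
theorem wildK3₁ (hsurj : Function.Surjective G.red) {ℓ : ℕ} [Fact ℓ.Prime] [Gauss1 N ℓ]
    (hA : A.LiesOverPrime ℓ) : WildK3₁ N A :=
  (k3₁_iff_wildK3₁ N A).mp (k3 N A G hsurj hA)

end Fermat.Agent.S48.B.K3.Wild

end
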