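import Mathlib
import Fermat.Agent.S48.B.K3.Wild
import Fermat.Agent.S48.B.Red.Inputs1

/-!
# PROJECT D (S48), part B, seam [B-K3] (helper13).  Adapter 2: the input `Residue1`, the Gauss datum
# of block B3, and THE SEAM `WildK3All`

* `residue1_of` : the input `Residue1 M A` from `Red.Seams.IgusaDeg M` (block B2);
* `jIn_datum₁`  : `j` is Gauss-integral for helper11's canonical datum `Red.Inputs1.datum₁ hrep` and
  reduces to `j̄`, in the shape `S37.Wild.KModel.JIn`;
* `wildK3₁_of`, `wildK3All_of` : the seam [B-K3] (`Red.SeamsWild.WildK3₁`, `WildK3All`) from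
  `IgusaDeg M`, `[CharZero1 M]`, `Gauss1 M 2`, `Gauss1 M 3` and the representation hypothesis
  `HasRep` of brick `Bases1`.
-/

set_option autoImplicit false
set_option synthInstance.maxHeartbeats 400000

noncomputable section

namespace Fermat.Agent.S48.B.K3.FromRed

open ModularCurve AlgebraicCurve IntermediateField IsLocalRing
open Fermat.Agent.S24.FF
open Fermat.Agent.S37.Deuring.Core
open Fermat.Agent.S48.B.Defs.Model Fermat.Agent.S48.B.B1.Seams
open Fermat.Agent.S48.B.K3.Inputs Fermat.Agent.S48.B.K3.Final1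
open Fermat.Agent.S48.B.Red.GaussG Fermat.Agent.S48.B.Red.Inputs1
open Fermat.Agent.S48.B.Red.Seams Fermat.Agent.S48.B.Red.SeamsWild

local notation "Kb" => AlgebraicClosure ℚ

attribute [local instance 2000] Fermat.Agent.S48.B.K3.Inputs.algkFk1

variable (M : ℕ) [NeZero M]

/-- **the input `Residue1 M A` of [B-K3] from [B-igusa]** -/
theorem residue1_of (hI : IgusaDeg M) {ℓ : ℕ} (hℓ : ℓ.Prime) (hℓM : ¬ ℓ ∣ M)
    (A : ValuationSubring Kb) (hA : A.LiesOverPrime ℓ) : Residue1 M A where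
  isFF := ⟨transcendental_jk1 M (ResidueField A), (hI ℓ hℓ hℓM A hA).1⟩
  finrank_le := (hI ℓ hℓ hℓM A hA).2.ge

variable {M} {A : ValuationSubring Kb}

/-- `j` is Gauss-integral for the canonical datum of block B3 and reduces to `j̄` -/
theorem jIn_datum₁ (hrep : HasRep A (residue A) (F1 M) (F1C M (ResidueField A))) :
    Fermat.Agent.S37.Wild.KModel.JIn (datum₁ hrep) where
  mem := by
    rw [algebraMap_FL_X]
    exact jgen1_mem_datum₁ hrep
  red_eq := by
    rw [algebraMap_Fk_X]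
    refine Eq.trans ?_ (red_jgen1_datum₁ hrep)
    congr 1
    exact Subtype.ext (algebraMap_FL_X M)

/-- **[B-K3] at `A`** from the inputs and the representation hypothesis of brick `Bases1`. -/
theorem wildK3₁_of [CharZero1 M] (hI : IgusaDeg M) {ℓ : ℕ} [Fact ℓ.Prime] [Gauss1 M ℓ]
    (hℓM : ¬ ℓ ∣ M) (hA : A.LiesOverPrime ℓ)
    (hrep : HasRep A (residue A) (F1 M) (F1C M (ResidueField A))) : WildK3₁ M A := by
  have := residue1_of M hI Fact.out hℓM A hA
  have := jIn_datum₁ hrep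
  intro _ hxL hsepL hxk hsep h1728
  exact Wild.wildK3₁ M A (datum₁ hrep) (datum₁_red_surjective hrep) hA hxL hsepL hxk hsep h1728

variable (M)

/-- **[B-K3]**: the seam `WildK3All M` of block B3. -/
theorem wildK3All_of [CharZero1 M] (hI : IgusaDeg M)
    (hG : ∀ (ℓ : ℕ) [Fact ℓ.Prime], ¬ ℓ ∣ M → (ℓ = 2 ∨ ℓ = 3) → Gauss1 M ℓ)
    (hrep : ∀ ℓ : ℕ, ℓ.Prime → ¬ ℓ ∣ M → (ℓ = 2 ∨ ℓ = 3) →
      ∀ A : ValuationSubring Kb, A.LiesOverPrime ℓ →
        HasRep A (residue A) (F1 M) (F1C M (ResidueField A))) : WildK3All M := by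
  intro ℓ hℓ hℓM h23 A hA
  have : Fact ℓ.Prime := ⟨hℓ⟩
  have := hG ℓ hℓM h23
  intro _ hxL hsepL hxk hsep h1728
  exact wildK3₁_of hI hℓM hA (hrep ℓ hℓ hℓM h23 A hA) hxL hsepL hxk hsep h1728

end Fermat.Agent.S48.B.K3.FromRed

end
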