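import Mathlib
import Fermat.Agent.S48.B.K3.Gauss1Of.Ring
import Fermat.Agent.S48.B.K3.Gauss1Of.Indep
import Fermat.Agent.S48.B.K3.Forms1
import Fermat.Agent.S18.ResidueBasics
import Fermat.Agent.Lib.FrobeniusExists

/-!
# PROJECT D (S48), part B, seam [B-K3], brick `Gauss1Of` (helper21): THE `ℚ`-FORM OF [B-igusa]

`gauss1_of : ¬ ℓ ∣ M → Red.Seams.IgusaDeg M → B1.Seams.Deg1 M → K3.Inputs.Gauss1 M ℓ`

The coefficientwise Gauss valuation ring `O1 ℓ M` of `ℚ(X₁(M)) = F1 M ⊆ ℚ((q))` at `ℓ`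
(`Gauss1Of/Ring.lean`) is unramified of full residue degree over the Gauss valuation ring
`GaussRat.Vrat ℓ 1` of `ℚ(j)`, with separable residue extension:

* the degree `n = [F1 M : ℚ(j)] = [F1Bar M : ℚ̄(j)]` (from `IsFF ℚ̄ (jgen1 M)`, constant field
  extension, `K3/Forms1` generic part);
* `IgusaDeg M` at ANY `A` over `ℓ` gives `n` integer series of `F1 M` whose reductions are
  `κ(A)(j̄)`-independent (`Indep.exists_integral_indep`), hence `𝔽_ℓ(J)`-independent mod `ℓ`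
  (`Indep.linearIndependent_of_coeffExt`, the easy direction of the descent);
* `UnramVal.Hyp` is then the five fields; separability is main's
  `S18/B/SeparableFk.isSeparable_intermediateField` (`𝔽_ℓ` is perfect).
-/

set_option autoImplicit false
set_option linter.unusedSectionVars false
set_option linter.style.haveILetI false
set_option warn.classDefReducibility false
set_option synthInstance.maxHeartbeats 400000
set_option maxHeartbeats 1000000

noncomputable section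

namespace Fermat.Agent.S48.B.K3.Gauss1Of

open HahnSeries ModularCurve IntermediateField Polynomial IsLocalRing
open Fermat.Agent.S28 Fermat.Agent.S28.GaussVal Fermat.Agent.S28.GaussFull
open Fermat.Agent.S48.B.Defs.Model Fermat.Agent.S48.B.B1.Seams
open Fermat.Agent.S48.B.K3.Inputs Fermat.Agent.S48.B.K3.Forms1
open Fermat.Agent.S48.B.K3.Gauss1Of.Ring Fermat.Agent.S48.B.K3.Gauss1Of.Indep
open Fermat.Agent.S48.B.Red.Seams (jC coe_jC IgusaDeg)
open Fermat.Agent.S24.FF Fermat.Agent.S18.A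
open Fermat.Agent.S30.Descent.ConstExt
open Fermat.Agent.S18.C.BaseChangeR
open Fermat.Agent.S18.C.UnramVal

local notation "Kb" => AlgebraicClosure ℚ

variable (M : ℕ) [NeZero M]

/-! ### The degree over the `j`-line, from `IsFF ℚ̄ (jgen1 M)` alone -/

section Degree

section IF

-- as in `K3/Forms1`: on `↥(F1 M)` we use the `ℚ`-algebra structure of `IntermediateField`
attribute [-instance] DivisionRing.toRatAlgebra

theorem finiteDimensional_full1_of_isFF (hFF : IsFF Kb (jgen1 M)) :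
    FiniteDimensional ℚ⟮jFull1 M⟯ ↥(F1 M) := by
  refine finiteDimensional_of_bc (K' := Kb) (F1 M) (transcendental_jFull1 M) ?_
  exact (isFF_congr (constExt_F1 M).symm (jgen1 M) (bcHom Kb (F1 M) (jFull1 M))
    (coe_bcHom_jFull1 M).symm hFF).finite

theorem finrank_full1_of_isFF (hFF : IsFF Kb (jgen1 M)) :
    Module.finrank ℚ⟮jFull1 M⟯ ↥(F1 M) = Module.finrank Kb⟮jgen1 M⟯ ↥(F1Bar M) := by
  haveI := finiteDimensional_full1_of_isFF M hFF
  rw [← (finrank_bcHom (K' := Kb) (F := F1 M) (transcendental_jFull1 M)).2]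
  exact finrank_congr (constExt_F1 M) _ _ (coe_bcHom_jFull1 M)

end IF

theorem finrank_full1_of_isFF_of_algebra (hFF : IsFF Kb (jgen1 M)) [inst : Algebra ℚ ↥(F1 M)] :
    FiniteDimensional ℚ⟮jFull1 M⟯ ↥(F1 M) ∧
      Module.finrank ℚ⟮jFull1 M⟯ ↥(F1 M) = Module.finrank Kb⟮jgen1 M⟯ ↥(F1Bar M) := by
  obtain rfl : inst = algF1 M := Subsingleton.elim _ _
  exact ⟨finiteDimensional_full1_of_isFF M hFF, finrank_full1_of_isFF M hFF⟩

/-- `[F1 M : ℚ(X)] = [F1Bar M : ℚ̄(j)]` for the `j`-line structure of `K3/Inputs`. -/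
theorem finrank_ratFunc_of_isFF (hFF : IsFF Kb (jgen1 M)) :
    FiniteDimensional (RatFunc ℚ) ↥(F1 M) ∧
      Module.finrank (RatFunc ℚ) ↥(F1 M) = Module.finrank Kb⟮jgen1 M⟯ ↥(F1Bar M) := by
  haveI := (finrank_full1_of_isFF_of_algebra M hFF).1
  have h := finrank_ratAlgebra (transcendental_jFull1 M)
  exact ⟨h.1, h.2.trans (finrank_full1_of_isFF_of_algebra M hFF).2⟩

end Degree

/-! ### The unramified package -/

section Main

variable (ℓ : ℕ) [Fact ℓ.Prime]

attribute [local instance] algBelow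

/-- an integer series of `F1 M` as an element of the Gauss valuation ring -/
def liftO (y : LaurentSeries ℤ) (hy : coeffMap (Int.castRingHom ℚ) y ∈ F1 M) : ↥(O1 ℓ M) :=
  ⟨⟨coeffMap (Int.castRingHom ℚ) y, hy⟩,
    mem_O1_of_mem_Ol ℓ M (x := ⟨coeffMap (Int.castRingHom ℚ) y, hy⟩) (coeffMap_int_mem_Ol ℓ y)⟩

theorem coe_red1_liftO (y : LaurentSeries ℤ) (hy : coeffMap (Int.castRingHom ℚ) y ∈ F1 M) :
    ((red1 ℓ M (liftO M ℓ y hy) : ↥(resField1 ℓ M)) : LaurentSeries (ZMod ℓ)) =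
      coeffMap (Int.castRingHom (ZMod ℓ)) y := by
  rw [coe_red1]
  have h := redw1_of_mem_Ol ℓ M (x := ⟨coeffMap (Int.castRingHom ℚ) y, hy⟩)
    (coeffMap_int_mem_Ol ℓ y)
  rw [redL_coeffMap_int] at h
  exact h

/-- **the `UnramVal` package of `O1` over the `j`-line** -/
theorem exists_hyp1 (hℓM : ¬ ℓ ∣ M) (hI : IgusaDeg M) (hFF : IsFF Kb (jgen1 M)) :
    ∃ t : Fin (Module.finrank (RatFunc ℚ) ↥(F1 M)) → ↥(O1 ℓ M),
      Hyp (RatFunc ℚ) (O1 ℓ M) (red1 ℓ M) (redV1 ℓ M) t := by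
  obtain ⟨A, hA⟩ :=
    Fermat.Agent.Lib.FrobeniusExists.exists_valuationSubring_liesOverPrime (L := Kb) ℓ
      (Fact.out : ℓ.Prime)
  haveI : CharP (ResidueField A) ℓ := Fermat.Agent.S18.ResidueBasics.charP_residueField A hA
  obtain ⟨hfin, hrank⟩ := hI ℓ (Fact.out : ℓ.Prime) hℓM A hA
  haveI := hfin
  have hn : Module.finrank (RatFunc ℚ) ↥(F1 M) =
      Module.finrank ↥((ResidueField A)⟮jC M (ResidueField A)⟯) ↥(F1C M (ResidueField A)) := by
    rw [hrank]
    exact (finrank_ratFunc_of_isFF M hFF).2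
  obtain ⟨y, hy, hli⟩ := exists_integral_indep M ((ResidueField A)⟮jC M (ResidueField A)⟯) _ hn
  refine ⟨fun i => liftO M ℓ (y i) (hy i), red1_eq_zero_iff ℓ M, red1_surjective ℓ M,
    compat1 ℓ M, ?_, by rw [Fintype.card_fin]⟩
  exact linearIndependent_of_coeffExt M ℓ y hy _ (fun i => coe_red1_liftO M ℓ (y i) (hy i)) hli

/-- **the residue extension of `O1` over the Gauss valuation ring of the `j`-line is separable** -/
theorem isSeparable_res1 {ι : Type*} [Fintype ι] {t : ι → ↥(O1 ℓ M)}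
    [FiniteDimensional (RatFunc ℚ) ↥(F1 M)]
    (h : Hyp (RatFunc ℚ) (O1 ℓ M) (red1 ℓ M) (redV1 ℓ M) t) :
    Algebra.IsSeparable ↥(kJ1 ℓ M) ↥(resField1 ℓ M) := by
  haveI : Module.Finite ↥(kJ1 ℓ M) ↥(resField1 ℓ M) := Module.Finite.of_basis h.basisRes
  haveI : Algebra.IsIntegral ↥((ZMod ℓ)⟮Jres ℓ M⟯) ↥(resField1 ℓ M) :=
    Algebra.IsIntegral.of_finite _ _
  refine Fermat.Agent.S18.B.SeparableFk.isSeparable_intermediateField (resField1 ℓ M) (Jres ℓ M)
    ?_ ?_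
  · exact Fermat.Agent.S48.B.K3.Inputs.transcendental_subtype (resField1 ℓ M) (Jres ℓ M)
      (transcendental_J ℓ)
  · exact Fermat.Agent.S28.ThetaAdjoin.thetaL_jqModC_ne_zero (ZMod ℓ)

/-- **THE `ℚ`-FORM OF [B-igusa]**: the Gauss valuation ring of `ℚ(X₁(M))` at `ℓ ∤ M` is unramified of
full residue degree over the Gauss valuation ring of `ℚ(j)`, with separable residue extension. -/
theorem gauss1_of_isFF (hℓM : ¬ ℓ ∣ M) (hI : IgusaDeg M) (hFF : IsFF Kb (jgen1 M)) :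
    Gauss1 M ℓ := by
  haveI := (finrank_ratFunc_of_isFF M hFF).1
  obtain ⟨t, ht⟩ := exists_hyp1 M ℓ hℓM hI hFF
  exact ⟨⟨O1 ℓ M, mem_O1_iff_mem_Vrat ℓ M, ↥(kJ1 ℓ M), ↥(resField1 ℓ M), inferInstance,
    inferInstance, inferInstance, isSeparable_res1 M ℓ ht, red1 ℓ M, redV1 ℓ M, t, ht⟩⟩

/-- **helper13's literal** (#5818 (3)) -/
theorem gauss1_of (M ℓ : ℕ) [NeZero M] [Fact ℓ.Prime] (hℓM : ¬ ℓ ∣ M)
    (hI : Fermat.Agent.S48.B.Red.Seams.IgusaDeg M) (hdeg : Fermat.Agent.S48.B.B1.Seams.Deg1 M) :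
    Fermat.Agent.S48.B.K3.Inputs.Gauss1 M ℓ :=
  gauss1_of_isFF M ℓ hℓM hI hdeg.1

end Main

end Fermat.Agent.S48.B.K3.Gauss1Of

end
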