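import Mathlib
import Fermat.Agent.S48.B.K3.FromB1
import Fermat.Agent.S48.B.K3.FromRed
import Fermat.Agent.S48.B.K3.Gauss1Of
import Fermat.Agent.S48.B.Red.Bases1
import Fermat.Agent.S48.B.Red.Wild1

/-!
# PROJECT D (S48), part B: THE WILD SPINE ON THE NAMED SEAMS (helper13)

`[B-K3] = Red.SeamsWild.WildK3All M` and `[B-wild] = Red.Seams.GenusLeWild1 M` (the inequality of
genera of `X₁(M)` in residue characteristic `2`, `3`) on the primitive seams of blocks B1, B2 and the
cusp count of block B3 only.  Glue of: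

* `K3/*` (this folder): the `X₁` twin of contract K3 (`FromRed.wildK3All_of`);
* helper21's `K3/Gauss1Of.gauss1_of` (the input `Gauss1` from `IgusaDeg`);
* helper27's `B1/Ram1` (the input `CharZero1` through `FromB1.charZero1_of`, and `Red.Seams.Ram1`);
* helper1's `Red/Bases1.hasRep_of_igusa` (the Gauss datum of `X₁(M)` at `A`);
* helper6's `Red/Wild1.genusLeWild1`.
-/

set_option autoImplicit false
set_option synthInstance.maxHeartbeats 400000

namespace Fermat.Agent.S48.B.K3.Spine

open Fermat.Agent.S48.B.B1.Seams Fermat.Agent.S48.B.B1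
open Fermat.Agent.S48.B.K3 Fermat.Agent.S48.B.K3.Inputs
open Fermat.Agent.S48.B.Red Fermat.Agent.S48.B.Red.Seams Fermat.Agent.S48.B.Red.SeamsWild
open Fermat.Agent.S48.B.B1.RepAll1

variable (M : ℕ) [NeZero M]

/-- **[B-K3]**: contract K3 for `X₁(M)` at every `A` over `2`, `3` (`ℓ ∤ M`), on the seams
`RepLe`, `Deg1`, `SepTay` (B1) and `IgusaDeg` (B2). -/
theorem wildK3All (hle : RepLe M) (hdeg : Deg1 M) (hsep : Orbits1PtAlt.SepTay M hle)
    (hI : IgusaDeg M) : WildK3All M := by
  have := FromB1.charZero1_of M hle hdeg hsep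
  exact FromRed.wildK3All_of M hI (fun ℓ _ hℓM _ => Gauss1Of.gauss1_of M ℓ hℓM hI hdeg)
    (fun ℓ hℓ hℓM _ A hA => Bases1.hasRep_of_igusa hI hℓ hℓM hA)

/-- **[B-wild]**: the inequality of genera for `X₁(M)` in residue characteristic `2` and `3`, on
the seams of B1 (`RepLe`, `Deg1`, the two separation statements), B2 (`IgusaDeg`) and the cusp
count of B3 (`CuspCountAll`). -/
theorem genusLeWild1 (hle : RepLe M) (hdeg : Deg1 M) (hsep : Orbits1PtAlt.SepTay M hle)
    (hsepc : Function.Injective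
      (Orbits1Cusp.L M (toRepField1 M Fermat.Agent.S24.OrbitDefs.ι hle)))
    (hI : IgusaDeg M) (hcp : CuspCountAll M) : GenusLeWild1 M :=
  Wild1.genusLeWild1 (wildK3All M hle hdeg hsep hI) hcp hI hdeg
    (Ram1.ram1_of M hle hdeg hsep hsepc)

end Fermat.Agent.S48.B.K3.Spine
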